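import Fermat.Agent.M59.Top.Chain3.LvSys3
import Fermat.Agent.M59.Top.Chain.SysGlue

/-!
M59 / [CHAIN-inst], case (III), part 3: THE CUT OF THE LEVEL SYSTEM INTO ITS TWO SIDES (helper26;
ruling #48).  Prefix `m59ci3_`.  Twin of helper25's M59/Top/Chain/SysGlue.lean.

`m59ci3_lvSys_of : m59ci3_ActSys … → m59ci3_PairSys … → m59ci3_LvSys …`  (PROVED).

The chain of case (III) is the chain of block [E'] (primes `l k ≠ p` of `B'`) with helper10's step at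
`l = p` (`m59p_StepP`) on top; `T'` is the Hecke ring of the TOP level (the level `N_m · p`),
`tr = tr ρ_top`, `zT' : T'` the eigenvalue of a Frobenius element at `p` on the unramified quotient
line of `ρ_top` (helper10's `m59p_IsUrEig`; `= m59rp_z E r E.fr` by helper24's `m59rpk_zUr`),
`vT' = tr ρ_top (g0 τ_v) - tr ρ_top (g0)` (helper13's `m59rp_v`).

* the **module side** `m59ci3_ActSys` = `m59ci_ActSys` with the Hecke operator `Tm k` of every step: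
  `A'B = B'A = Tm k`; at a step `l k ≠ p`: `Tm k = act (tr ρ(Frob_l))` and (I3) in trace form; at the
  step `l k = p`: (ES-p)₀ `(act zT' * Tm k - act (zT'² + p)) ^ EE = 0` and (I3) for
  `(zT'² - 1) ^ ee k`; [UNR-0] at the primes `l k ≠ p`; the FLAT clause at the level `0`:
  `act 0 (vT' - c) = 0` for some `c ∈ (λ) + 𝔪_{T'}²`;
* the **pair side** `m59ci3_PairSys` = `m59ci_PairSys` with GENERATORS `w : κ → 𝔪_T` of `𝔪_T` relative
  to `z` (instead of the cotangent bound), `w ka = εp • zT - 1`, `w ka * w kv = 0` ((R1)),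
  `pr zT = zT'`, `pr (w kv) = vT'`, `pr` onto.
-/

set_option autoImplicit false
set_option linter.style.haveILetI false
set_option linter.unusedSectionVars false
set_option linter.unusedVariables false

open IsLocalRing MvPowerSeries Matrix Fermat.Agent.TW

namespace Fermat.Agent.M59

noncomputable section

local notation "GQ" => (AlgebraicClosure ℚ ≃ₐ[ℚ] AlgebraicClosure ℚ)
local notation "Qbar" => AlgebraicClosure ℚ

/-- the generators of the ideal of ramification at the primes `l k ≠ p` of the chain. -/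
def m59ci3_ramSet {m : ℕ} (l : Fin m → ℕ) (p : ℕ) {T' : Type} [CommRing T'] (tr : GQ → T') :
    Set T' :=
  {x | ∃ (k : Fin m) (σ τ : GQ), l k ≠ p ∧ m59ci_IsInert τ (l k) ∧ x = tr (σ * τ) - tr σ}

/-- **the module side** of the chain system of case (III) at one patching level. -/
structure m59ci3_ActSys (𝒪 : Type) [CommRing 𝒪] (rr : ℕ) {m : ℕ}
    (d : Fin (m + 1) → ℕ) (l : Fin m → ℕ) (p : ℕ) (ee : Fin m → ℕ) (EE : ℕ) (lam : 𝒪)
    (𝔞 𝔟 : Ideal (MvPowerSeries (Fin rr) 𝒪)) (h𝔟𝔞 : 𝔟 ≤ 𝔞)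
    (T' : Type) [CommRing T'] [IsLocalRing T'] [Algebra 𝒪 T'] (tr : GQ → T') (zT' vT' : T')
    (jT : T' →+* Matrix (Fin (d (Fin.last m))) (Fin (d (Fin.last m)))
      (MvPowerSeries (Fin rr) 𝒪 ⧸ 𝔞))
    (uT : Fin rr → T') : Type where
  /-- the actions on the free modules `M_k = (S ⧸ 𝔟)^(d k)` -/
  act : ∀ k : Fin (m + 1), T' →ₐ[𝒪] Matrix (Fin (d k)) (Fin (d k)) (MvPowerSeries (Fin rr) 𝒪 ⧸ 𝔟)
  act_u : ∀ k i, act k (uT i) = Matrix.scalar (Fin (d k)) (1 + Ideal.Quotient.mk 𝔟 (X i))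
  /-- `α^*` -/
  A : ∀ k : Fin m, Matrix (Fin (d k.succ)) (Fin (d k.castSucc)) (MvPowerSeries (Fin rr) 𝒪 ⧸ 𝔟)
  /-- `β^*` -/
  B : ∀ k : Fin m, Matrix (Fin (d k.succ)) (Fin (d k.castSucc)) (MvPowerSeries (Fin rr) 𝒪 ⧸ 𝔟)
  /-- `α_*` -/
  A' : ∀ k : Fin m, Matrix (Fin (d k.castSucc)) (Fin (d k.succ)) (MvPowerSeries (Fin rr) 𝒪 ⧸ 𝔟)
  /-- `β_*` -/
  B' : ∀ k : Fin m, Matrix (Fin (d k.castSucc)) (Fin (d k.succ)) (MvPowerSeries (Fin rr) 𝒪 ⧸ 𝔟)
  /-- the Hecke operator at the prime of the step, on `M_k` -/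
  Tm : ∀ k : Fin m, Matrix (Fin (d k.castSucc)) (Fin (d k.castSucc))
    (MvPowerSeries (Fin rr) 𝒪 ⧸ 𝔟)
  A_act : ∀ k x, act k.succ x * A k = A k * act k.castSucc x
  B_act : ∀ k x, act k.succ x * B k = B k * act k.castSucc x
  A'_act : ∀ k x, A' k * act k.succ x = act k.castSucc x * A' k
  B'_act : ∀ k x, B' k * act k.succ x = act k.castSucc x * B' k
  A'_A : ∀ k, A' k * A k = act k.castSucc (((l k : ℕ) : T') + 1)
  B'_B : ∀ k, B' k * B k = act k.castSucc (((l k : ℕ) : T') + 1)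
  A'_B : ∀ k, A' k * B k = Tm k
  B'_A : ∀ k, B' k * A k = Tm k
  /-- at a prime `≠ p`: `T_l = tr ρ(Frob_l)`, for every Frobenius element at `l` -/
  Tm_eq : ∀ k, l k ≠ p → ∀ σ : GQ, m59ci_IsFrob σ (l k) → Tm k = act k.castSucc (tr σ)
  /-- **(ES-p)₀** at the `p`-step -/
  Tm_nil : ∀ k, l k = p →
    (act k.castSucc zT' * Tm k - act k.castSucc (zT' ^ 2 + (p : T'))) ^ EE = 0
  /-- **(I1)** -/
  split : ∀ k, ∃ L1 L2 : Matrix (Fin (d k.castSucc)) (Fin (d k.succ))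
      (MvPowerSeries (Fin rr) 𝒪 ⧸ 𝔟),
    L1 * A k = 1 ∧ L1 * B k = 0 ∧ L2 * A k = 0 ∧ L2 * B k = 1
  /-- **(I2)** -/
  onto : ∀ k, ∃ V1 : Matrix (Fin (d k.succ)) (Fin (d k.castSucc))
      (MvPowerSeries (Fin rr) 𝒪 ⧸ 𝔟), A' k * V1 = 1 ∧ B' k * V1 = 0
  /-- **(I3)**, trace form, at a prime `≠ p` -/
  new : ∀ k, l k ≠ p → ∀ σ : GQ, m59ci_IsFrob σ (l k) →
    ∃ Y1 Y2 : Matrix (Fin (d k.castSucc)) (Fin (d k.succ)) (MvPowerSeries (Fin rr) 𝒪 ⧸ 𝔟),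
      act k.succ ((tr σ ^ 2 - (((l k : ℕ) : T') + 1) ^ 2) ^ ee k) = A k * Y1 + B k * Y2
  /-- **(I3)** at `p` -/
  newp : ∀ k, l k = p →
    ∃ Y1 Y2 : Matrix (Fin (d k.castSucc)) (Fin (d k.succ)) (MvPowerSeries (Fin rr) 𝒪 ⧸ 𝔟),
      act k.succ ((zT' ^ 2 - 1) ^ ee k) = A k * Y1 + B k * Y2
  /-- **[UNR-0]**, trace form: the base level is unramified at the primes `≠ p` of the chain -/
  unr0 : ∀ x ∈ m59ci3_ramSet l p tr, act 0 x = 0
  /-- **(R2')** the base level is flat at `p` -/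
  flat0 : ∃ c : T', c ∈ Ideal.span {algebraMap 𝒪 T' lam} ⊔ maximalIdeal T' ^ 2 ∧
    act 0 (vT' - c) = 0
  act_mod : ∀ t : T', (act (Fin.last m) t).map (Ideal.Quotient.factor h𝔟𝔞) = jT t

/-- **the pair side** of the chain system of case (III) at one patching level. -/
structure m59ci3_PairSys (𝒪 : Type) [CommRing 𝒪] [IsLocalRing 𝒪] (rr : ℕ) {m : ℕ} (dl : ℕ)
    (l : Fin m → ℕ) {T8 Tn : Type} (κ : Type) [Fintype κ]
    (a : T8 → 𝒪) (l8 : T8 → ℕ) (t0 : Tn → 𝒪) (ln : Tn → ℕ) (ka kv : κ) (p : ℕ) (εp : ℤ)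
    (ch : Fin m → (T8 ⊕ Tn) ⊕ Unit)
    (𝔞 : Ideal (MvPowerSeries (Fin rr) 𝒪))
    (T0 : Type) [CommRing T0] [Algebra 𝒪 T0]
    (j : T0 →+* Matrix (Fin dl) (Fin dl) (MvPowerSeries (Fin rr) 𝒪 ⧸ 𝔞))
    (β : ((T8 × Fin 6) ⊕ Tn) ⊕ Unit → T0)
    (T' : Type) [CommRing T'] [Algebra 𝒪 T'] (tr : GQ → T') (zT' vT' : T')
    (jT : T' →+* Matrix (Fin dl) (Fin dl) (MvPowerSeries (Fin rr) 𝒪 ⧸ 𝔞))
    (uT : Fin rr → T') : Type 1 where
  /-- the pair ring -/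
  T : Type
  [instCommRing : CommRing T]
  [instIsLocalRing : IsLocalRing T]
  [instIsNoetherianRing : IsNoetherianRing T]
  [instIsAdicComplete : IsAdicComplete (maximalIdeal T) T]
  [instAlgebra : Algebra 𝒪 T]
  [instIsLocalHom : IsLocalHom (algebraMap 𝒪 T)]
  residue_surjective : Function.Surjective (residue T ∘ algebraMap 𝒪 T)
  /-- the local coordinates at the primes of `B'` -/
  z : m59ci_Iz T8 Tn → maximalIdeal T
  /-- generators of `𝔪_T` relative to `z` -/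
  w : κ → maximalIdeal T
  gens : maximalIdeal T = (maximalIdeal 𝒪).map (algebraMap 𝒪 T) ⊔
    Ideal.span (Set.range (Sum.elim (fun c => (z c : T)) (fun k => (w k : T))))
  /-- the unramified eigenvalue at `p` -/
  zT : T
  w_ka : (w ka : T) = εp • zT - 1
  /-- (R1) -/
  av : (w ka : T) * (w kv : T) = 0
  rel : ∀ γ : m59b_P 𝒪 T8 Tn κ →ₐ[𝒪] T, (∀ c, γ (X (m59ci_emb κ c)) = (z c : T)) →
    m59b_J 𝒪 κ a l8 t0 ln ≤ RingHom.ker (γ : m59b_P 𝒪 T8 Tn κ →+* T)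
  /-- the Galois diamonds in the pair ring -/
  u : Fin rr → T
  u_mem : ∀ i, u i - 1 ∈ maximalIdeal T
  /-- the projection to the Hecke ring of the top level -/
  pr : T →ₐ[𝒪] T'
  pr_surjective : Function.Surjective pr
  pr_u : ∀ i, pr (u i) = uT i
  pr_z : pr zT = zT'
  pr_v : pr (w kv : T) = vT'
  /-- Frobenius elements at the primes of the chain -/
  gφ : Fin m → GQ
  gφ_frob : ∀ k b, ch k = Sum.inl b → m59ci_IsFrob (gφ k) (l k)
  /-- the trace coordinate is the trace of Frobenius -/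
  pr_tr : ∀ k b, ch k = Sum.inl b → pr (m59ci_trT a t0 z b) = tr (gφ k)
  /-- the `N`-coordinates lie in the ideal of ramification -/
  pr_N : ∀ i, pr (z (m59ci_embN i) : T) ∈ Ideal.span (m59ci3_ramSet l p tr)
  /-- the map to `T₀` -/
  π0 : T →ₐ[𝒪] T0
  π0_surjective : Function.Surjective π0
  j_π0 : ∀ t : T, j (π0 t) = jT (pr t)
  π0_u : ∀ i, π0 (u i) = 1
  π0_ν : ∀ c, π0 (m59ci3_nuT a t0 z (w ka : T) c) = β c

attribute [instance] m59ci3_PairSys.instCommRing m59ci3_PairSys.instIsLocalRing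
  m59ci3_PairSys.instIsNoetherianRing m59ci3_PairSys.instIsAdicComplete
  m59ci3_PairSys.instAlgebra m59ci3_PairSys.instIsLocalHom

section glue

variable {𝒪 : Type} [CommRing 𝒪] [IsLocalRing 𝒪] {rr : ℕ} {m : ℕ}
  {d : Fin (m + 1) → ℕ} {l : Fin m → ℕ} {ee : Fin m → ℕ} {EE : ℕ}
  {T8 Tn κ : Type} [Fintype κ]
  {a : T8 → 𝒪} {l8 : T8 → ℕ} {t0 : Tn → 𝒪} {ln : Tn → ℕ} {ka kv : κ} {p : ℕ} {εp : ℤ} {lam : 𝒪}
  {ch : Fin m → (T8 ⊕ Tn) ⊕ Unit}
  {𝔞 𝔟 : Ideal (MvPowerSeries (Fin rr) 𝒪)} {h𝔟𝔞 : 𝔟 ≤ 𝔞}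
  {T0 : Type} [CommRing T0] [Algebra 𝒪 T0]
  {j : T0 →+* Matrix (Fin (d (Fin.last m))) (Fin (d (Fin.last m)))
    (MvPowerSeries (Fin rr) 𝒪 ⧸ 𝔞)}
  {β : ((T8 × Fin 6) ⊕ Tn) ⊕ Unit → T0}
  {T' : Type} [CommRing T'] [IsLocalRing T'] [Algebra 𝒪 T'] {tr : GQ → T'} {zT' vT' : T'}
  {jT : T' →+* Matrix (Fin (d (Fin.last m))) (Fin (d (Fin.last m)))
    (MvPowerSeries (Fin rr) 𝒪 ⧸ 𝔞)}
  {uT : Fin rr → T'}

/-- **the chain system of case (III) from its two sides.**  `hl`: the prime of the step `k` is the one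
of `ch k` (`p` at the `p`-step); `hlp`: the primes of `B'` are `≠ p`. -/
def m59ci3_lvSys_of (hl : ∀ k, l k = m59ci3_lc l8 ln p (ch k))
    (hlp : ∀ k b, ch k = Sum.inl b → l k ≠ p)
    (AS : m59ci3_ActSys 𝒪 rr d l p ee EE lam 𝔞 𝔟 h𝔟𝔞 T' tr zT' vT' jT uT)
    (PS : m59ci3_PairSys 𝒪 rr (d (Fin.last m)) l κ a l8 t0 ln ka kv p εp ch 𝔞 T0 j β T' tr zT' vT'
      jT uT) :
    m59ci3_LvSys 𝒪 rr d κ a l8 t0 ln ka kv p εp lam ch ee EE 𝔞 𝔟 h𝔟𝔞 T0 j β where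
  T := PS.T
  residue_surjective := PS.residue_surjective
  z := PS.z
  w := PS.w
  gens := PS.gens
  zT := PS.zT
  w_ka := PS.w_ka
  av := PS.av
  rel := PS.rel
  act := fun k => (AS.act k).comp PS.pr
  u := PS.u
  u_mem := PS.u_mem
  act_u := fun k i => by
    rw [AlgHom.comp_apply, PS.pr_u, AS.act_u]
  A := AS.A
  B := AS.B
  A' := AS.A'
  B' := AS.B'
  Tm := AS.Tm
  A_act := fun k x => AS.A_act k (PS.pr x)
  B_act := fun k x => AS.B_act k (PS.pr x)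
  A'_act := fun k x => AS.A'_act k (PS.pr x)
  B'_act := fun k x => AS.B'_act k (PS.pr x)
  A'_A := fun k => by
    rw [AlgHom.comp_apply, map_add, map_natCast, map_one, ← hl k]
    exact AS.A'_A k
  B'_B := fun k => by
    rw [AlgHom.comp_apply, map_add, map_natCast, map_one, ← hl k]
    exact AS.B'_B k
  A'_B := AS.A'_B
  B'_A := AS.B'_A
  Tm_eq := fun k b hk => by
    rw [AlgHom.comp_apply, PS.pr_tr k b hk]
    exact AS.Tm_eq k (hlp k b hk) (PS.gφ k) (PS.gφ_frob k b hk)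
  Tm_nil := fun k hk => by
    have hlk : l k = p := by
      rw [hl k, hk]
      rfl
    have e1 : PS.pr (PS.zT ^ 2 + (p : PS.T)) = zT' ^ 2 + (p : T') := by
      rw [map_add, map_pow, map_natCast, PS.pr_z]
    rw [AlgHom.comp_apply, AlgHom.comp_apply, e1, PS.pr_z]
    exact AS.Tm_nil k hlk
  split := AS.split
  onto := AS.onto
  new := fun k b hk => by
    obtain ⟨Y1, Y2, hY⟩ := AS.new k (hlp k b hk) (PS.gφ k) (PS.gφ_frob k b hk)
    refine ⟨Y1, Y2, ?_⟩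
    have hlk : l k = m59ci_lc l8 ln b := by
      rw [hl k, hk]
      rfl
    have e : PS.pr ((m59ci_trT a t0 PS.z b ^ 2 -
        (((m59ci_lc l8 ln b : ℕ) : PS.T) + 1) ^ 2) ^ ee k) =
        (tr (PS.gφ k) ^ 2 - (((l k : ℕ) : T') + 1) ^ 2) ^ ee k := by
      rw [map_pow, map_sub, map_pow, map_pow, map_add, map_natCast, map_one, PS.pr_tr k b hk,
        ← hlk]
    rw [AlgHom.comp_apply, e]
    exact hY
  newp := fun k hk => by
    have hlk : l k = p := by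
      rw [hl k, hk]
      rfl
    obtain ⟨Y1, Y2, hY⟩ := AS.newp k hlk
    refine ⟨Y1, Y2, ?_⟩
    have e : PS.pr ((PS.zT ^ 2 - 1) ^ ee k) = (zT' ^ 2 - 1) ^ ee k := by
      rw [map_pow, map_sub, map_pow, map_one, PS.pr_z]
    rw [AlgHom.comp_apply, e]
    exact hY
  unr0 := fun i => by
    rw [AlgHom.comp_apply]
    exact m59ci_kills_span (AS.act 0).toRingHom _ AS.unr0 _ (PS.pr_N i)
  flat0 := by
    obtain ⟨c, hc, hc0⟩ := AS.flat0
    have hsurj : Function.Surjective (PS.pr : PS.T →+* T') := PS.pr_surjective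
    have hcc : c ∈ Ideal.span {(PS.pr : PS.T →+* T') (algebraMap 𝒪 PS.T lam)} ⊔
        maximalIdeal T' ^ 2 := by
      have e : (PS.pr : PS.T →+* T') (algebraMap 𝒪 PS.T lam) = algebraMap 𝒪 T' lam :=
        PS.pr.commutes lam
      rw [e]
      exact hc
    obtain ⟨c', hc'1, hc'2⟩ :=
      m59ci3_exists_preimage (PS.pr : PS.T →+* T') hsurj (algebraMap 𝒪 PS.T lam) c hcc
    refine ⟨c', hc'1, ?_⟩
    have hc'3 : PS.pr c' = c := hc'2
    rw [AlgHom.comp_apply, map_sub, PS.pr_v, hc'3]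
    exact hc0
  π0 := PS.π0
  π0_surjective := PS.π0_surjective
  act_mod := fun t => by
    rw [AlgHom.comp_apply, AS.act_mod, PS.j_π0]
  π0_u := PS.π0_u
  π0_ν := PS.π0_ν

end glue

end

end Fermat.Agent.M59
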