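import Fermat.Agent.M59.Top.Chain3.Frame3
import Fermat.Agent.M59.Top.EngS

/-!
M59 / [CHAIN-inst], case (III), ISSUE 3 (helper26; chief's ruling #5704 (4)).  Prefix `m59ci3S_`.

The leaf of case (III) with the extra hypothesis `ρ.IsStrictOrdinaryAt p` (`ρ = ρ_W ⊗ 𝒪`; the
unramified quotient character of `ρ_W` at `p` is `εp = ± 1` EXACTLY, so the coordinate `a` of the frame
of M59/Top/Chain3/Frame3.lean vanishes at the point of `W`: `m59ci3_xval (inr ()) = 0`):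

* `m59ci3S_Level_stmt Peu` = `m59ci3_Level_stmt Peu` with `ρ.IsStrictOrdinaryAt p →` after `IsTate`;
* `m59ci3S_caseIII_of : m59ci3S_Level_stmt Peu → m59ci_CaseIIIS_stmt Peu` (PROVED; the chief's seam of
  M59/Top/EngS.lean);
* `m59ci3S_level_of_level` : the old leaf is stronger.
-/

set_option autoImplicit false
set_option linter.style.haveILetI false
set_option linter.unusedSectionVars false
set_option linter.unusedVariables false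

open Polynomial CuspForm IsLocalRing WeierstrassCurve Fermat.Agent.TW

namespace Fermat.Agent.M59

noncomputable section

/-- **[CI3-LEVEL], issue 3** (case (III), `ρ_W` strictly ordinary at `p`): the level data on the
frame of `Rp`. -/
def m59ci3S_Level_stmt (Peu : m59e_PeuPred) : Prop :=
  ∀ (p : ℕ) [Fact p.Prime], p = 3 ∨ p = 5 → ∀ W : WeierstrassCurve ℤ, W.Δ ≠ 0 →
    W.IsSemistableModel →
  ∀ (𝒪 : Type) [CommRing 𝒪] [IsDomain 𝒪] [IsDiscreteValuationRing 𝒪]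
    [IsAdicComplete (maximalIdeal 𝒪) 𝒪] [Finite (ResidueField 𝒪)] [CharZero 𝒪],
    (p : 𝒪) ∈ maximalIdeal 𝒪 → (∃ ζ : 𝒪, IsPrimitiveRoot ζ p) →
  ∀ ρ : GaloisRepAdic 𝒪, m59e_IsTate p W ρ → ρ.IsStrictOrdinaryAt p →
  ∀ (S : Finset ℕ) (N₁ : ℕ), m59e_IsBadSet W p S → Squarefree N₁ →
    (∀ ℓ : ℕ, ℓ.Prime → ℓ ∣ N₁ → ℓ ∈ S) →
    m59e_Occ p W S N₁ →
    (∀ q : ℕ, q.Prime → q ≠ p → q ∣ N₁ → ¬ ρ.residual.IsUnramifiedAt q) →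
    -- case (III)
    ¬ W.IsGoodPrimeFor p → ¬ p ∣ N₁ →
  ∀ lam : 𝒪, maximalIdeal 𝒪 = Ideal.span {lam} →
    ∃ (S' : Finset ℕ) (N : ℕ) (_ : NeZero N),
      S ⊆ S' ∧ Squarefree N ∧ (∀ ℓ : ℕ, ℓ.Prime → ℓ ∣ N → ℓ ∈ S') ∧
      ∃ (T8 Tn κ : Type) (_ : Fintype T8) (_ : Fintype Tn) (_ : Fintype κ)
        (a : T8 → 𝒪) (l8 : T8 → ℕ) (t0 : Tn → 𝒪) (ln : Tn → ℕ) (ε8 : T8 → ℤ) (εn : Tn → ℤ)
        (ka kv : κ) (εp : ℤ)
        (m : ℕ) (ch : Fin m → (T8 ⊕ Tn) ⊕ Unit) (ee : Fin m → ℕ) (rr : ℕ)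
        (d : Fin (m + 1) → ℕ) (e : Fin m → ℕ) (EE : ℕ)
        (T0 : Type) (_ : CommRing T0) (_ : Algebra 𝒪 T0) (_ : Module.Finite 𝒪 T0)
        (x₂ : T0 →ₐ[𝒪] 𝒪)
        (j : T0 →+* Matrix (Fin (d (Fin.last m))) (Fin (d (Fin.last m)))
          (MvPowerSeries (Fin rr) 𝒪 ⧸ twds_a 𝒪 rr))
        (K : Type) (_ : Finite K) (γ : K → T0) (β : ((T8 × Fin 6) ⊕ Tn) ⊕ Unit → T0)
        (act : heckeAlgebra N 2 (↑S' : Set ℕ) →+*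
          Matrix (Fin (d (Fin.last m))) (Fin (d (Fin.last m)))
            (MvPowerSeries (Fin rr) 𝒪 ⧸ twds_a 𝒪 rr)),
        Function.Bijective ch ∧ ka ≠ kv ∧ εp * εp = 1 ∧
        (∀ t, l8 t % p = 1) ∧ (∀ t, 2 ≤ l8 t) ∧
        (∀ t, a t ^ 2 - (l8 t : 𝒪) ∈ maximalIdeal 𝒪) ∧
        (∀ t, ε8 t * ε8 t = 1) ∧ (∀ l, εn l * εn l = 1) ∧
        rr + 1 = Fintype.card κ + 3 * Fintype.card T8 + Fintype.card Tn ∧ 0 < d 0 ∧
        Submodule.span 𝒪 (Set.range γ) = ⊤ ∧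
        (∀ c, x₂ (β c) = m59ci3_xval l8 ln ε8 εn c) ∧
        (∀ [IsLocalRing (m59lp_Rp 𝒪 κ a l8 t0 ln ka kv)] (n : ℕ),
          Nonempty (m59d_ChainLevel 𝒪 (MvPowerSeries (Fin rr) 𝒪)
            (m59lp_Rp 𝒪 κ a l8 t0 ln ka kv) T0 d e EE (twds_a 𝒪 rr) (twds_b 𝒪 rr (p ^ n))
            (twds_b_le_a rr (p ^ n)) j (m59ci_theta 𝒪 rr T0) (m59lp_uRp a l8 t0 ln ka kv)
            (m59lp_cc lam a l8 t0 ln ka kv) (m59ci3_nu κ a l8 t0 ln ka kv) β γ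
            (m59ci3_r κ a l8 t0 ln ka kv ch ee)
            (m59ci3_s κ a l8 t0 ln ka kv ch p εp ε8 εn))) ∧
        ∀ (ℓ : ℕ) (hℓ : ℓ.Prime) (hℓN : ¬ ℓ ∣ N) (hℓS : ℓ ∉ (↑S' : Set ℕ)),
          ∃ t : T0, j t = act (heckeAlgebra.T hℓ hℓN hℓS) ∧
            x₂ t = ((W.apOfModel ℓ : ℤ) : 𝒪)

/-- **[CI-III] (issue 3) from [CI3-LEVEL] (issue 3)**: the conclusion of [CHAIN-INPUT] in case (III). -/
theorem m59ci3S_caseIII_of (Peu : m59e_PeuPred) (hL : m59ci3S_Level_stmt Peu) :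
    m59ci_CaseIIIS_stmt Peu := by
  intro p hpF hp W hΔ hW 𝒪 _ _ _ _ _ _ hp𝒪 hζ ρ hT hSO S N₁ hS hN₁sq hN₁S hOcc hram hbad hpN
  obtain ⟨lam, hlam⟩ := IsDiscreteValuationRing.exists_irreducible 𝒪
  have hmax : maximalIdeal 𝒪 = Ideal.span {lam} :=
    (IsDiscreteValuationRing.irreducible_iff_uniformizer lam).1 hlam
  obtain ⟨S', N, hNZ, hSS', hNsq, hNS', T8, Tn, κ, _, _, _, a, l8, t0, ln, ε8, εn, ka, kv, εp,
    m, ch, ee, rr, d, e, EE, T0, _, _, _, x₂, j, K, _, γ, β, act, hch, hne, hεp, hl8, hl8', han,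
    hε8, hεn, hrr, hd0, hγ, hβ, hLv, hact⟩ :=
    hL p hp W hΔ hW 𝒪 hp𝒪 hζ ρ hT hSO S N₁ hS hN₁sq hN₁S hOcc hram hbad hpN lam hmax
  have hp2 : p ≠ 2 := by
    rcases hp with rfl | rfl <;> norm_num
  haveI hloc : IsLocalRing (m59lp_Rp 𝒪 κ a l8 t0 ln ka kv) :=
    m59lp_Rp_isLocalRing 𝒪 κ a l8 t0 ln ka kv han
  exact ⟨S', N, hNZ, hSS', hNsq, hNS', lam, T0, inferInstance, inferInstance,
    (x₂ : T0 →+* 𝒪),
    m59ci3_data hpF.out hp2 hp𝒪 hmax a l8 t0 ln ε8 εn ka kv εp ch ee rr d e EE x₂ j γ β hch hne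
      hεp hl8 hl8' han hε8 hεn hrr hd0 hγ hβ (fun n => hLv n),
    act, hact⟩


/-- the old leaf is stronger. -/
theorem m59ci3S_level_of_level (Peu : m59e_PeuPred) (h : m59ci3_Level_stmt Peu) :
    m59ci3S_Level_stmt Peu := by
  intro p _ hp W hΔ hW 𝒪 _ _ _ _ _ _ hp𝒪 hζ ρ hT _ S N₁ hS hN₁sq hN₁S hOcc hram hbad hpN lam hmax
  exact h p hp W hΔ hW 𝒪 hp𝒪 hζ ρ hT S N₁ hS hN₁sq hN₁S hOcc hram hbad hpN lam hmax

end

end Fermat.Agent.M59
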