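import Fermat.Agent.M59.Top.Chain3.Frame3S
import Fermat.Agent.M59.Top.Chain.LevelOfSys
import Fermat.Agent.M59.AtP.AbsStepP

/-!
M59 / [CHAIN-inst], case (III), part 2: THE LEVEL SYSTEM WITH THE `p`-STEP (helper26; ruling #48).
Prefix `m59ci3_`.

Twin of helper25's `m59ci_LvSys` (M59/Top/Chain/LvSys.lean) and `m59ci_level_of_sys`
(M59/Top/Chain/LevelOfSys.lean) on the frame of `Rp` (M59/Top/Chain3/Frame3.lean):

* `structure m59ci3_LvSys` : ONE complete noetherian local `𝒪`-algebra `T` (the pair ring of the top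
  level, which is a `p`-level), local coordinates `z` at the primes of `B'`, generators `w : κ → 𝔪_T`
  of `𝔪_T` relative to `z` with `w ka = εp • zT - 1` (`zT` the unramified eigenvalue at `p`),
  `w kv = v_T` and `w ka * w kv = 0` ((R1)); the actions `act k`; for every step `k` the degeneracy
  matrices with `A'A = B'B = l + 1`, `A'B = B'A = Tm k`, where
  - at a step `ch k = Sum.inl b` (a prime of `B'`): `Tm k = act (tr Φ_b)` and (I3) for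
    `((tr Φ_b)² - (l_b + 1)²) ^ ee k`,
  - at the step `ch k = Sum.inr ()` (the prime `p`): (ES-p)₀ `(act zT * Tm k - act (zT² + p)) ^ EE = 0`
    and (I3) for `(zT² - 1) ^ ee k`;
  [UNR-0] at the primes of `B'`, and the FLAT clause at the level `0`: `act 0 (v_T - c) = 0` for some
  `c ∈ (λ) + 𝔪_T²` ((R2'));
* `m59ci3_level_of_sys : m59ci3_LvSys … → Nonempty (m59d_ChainLevel … on the frame of Rp)` (PROVED:
  `m59ci_abs_step` at the primes of `B'`, helper10's `m59p_abs_stepP` + `m59p_abs_X_nil` at `p`);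
* `m59ci3S_Sys_stmt Peu` **[CI3-SYS]** and `m59ci3S_level_of_sysStmt : m59ci3S_Sys_stmt Peu →
  m59ci3S_Level_stmt Peu` (PROVED; issue 3: with `ρ.IsStrictOrdinaryAt p`).
-/

set_option autoImplicit false
set_option linter.style.haveILetI false
set_option linter.unusedSectionVars false
set_option linter.unusedVariables false

open IsLocalRing MvPowerSeries Matrix Fermat.Agent.TW Fermat.Agent.S56

namespace Fermat.Agent.M59

noncomputable section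

/-! ### the level system -/

section defs

variable {𝒪 : Type} [CommRing 𝒪] {T : Type} [CommRing T] [IsLocalRing T] [Algebra 𝒪 T]
  {T8 Tn : Type}

/-- the prime number of a step of the chain of case (III). -/
def m59ci3_lc (l8 : T8 → ℕ) (ln : Tn → ℕ) (p : ℕ) : (T8 ⊕ Tn) ⊕ Unit → ℕ :=
  Sum.elim (m59ci_lc l8 ln) (fun _ => p)

/-- the images in `T` of the coordinates `ν` of case (III). -/
def m59ci3_nuT (a : T8 → 𝒪) (t0 : Tn → 𝒪) (z : m59ci_Iz T8 Tn → maximalIdeal T) (aT : T) :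
    ((T8 × Fin 6) ⊕ Tn) ⊕ Unit → T :=
  Sum.elim (m59ci_nuT a t0 z) (fun _ => aT)

end defs

/-- **the chain system of case (III) at one patching level** (`𝔟 = 𝔟_n`). -/
structure m59ci3_LvSys (𝒪 : Type) [CommRing 𝒪] [IsLocalRing 𝒪] (rr : ℕ) {m : ℕ}
    (d : Fin (m + 1) → ℕ) {T8 Tn : Type} (κ : Type) [Fintype κ]
    (a : T8 → 𝒪) (l8 : T8 → ℕ) (t0 : Tn → 𝒪) (ln : Tn → ℕ) (ka kv : κ) (p : ℕ) (εp : ℤ)
    (lam : 𝒪) (ch : Fin m → (T8 ⊕ Tn) ⊕ Unit) (ee : Fin m → ℕ) (EE : ℕ)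
    (𝔞 𝔟 : Ideal (MvPowerSeries (Fin rr) 𝒪)) (h𝔟𝔞 : 𝔟 ≤ 𝔞)
    (T0 : Type) [CommRing T0] [Algebra 𝒪 T0]
    (j : T0 →+* Matrix (Fin (d (Fin.last m))) (Fin (d (Fin.last m)))
      (MvPowerSeries (Fin rr) 𝒪 ⧸ 𝔞))
    (β : ((T8 × Fin 6) ⊕ Tn) ⊕ Unit → T0) : Type 1 where
  /-- the pair ring of the top level of the chain -/
  T : Type
  [instCommRing : CommRing T]
  [instIsLocalRing : IsLocalRing T]
  [instIsNoetherianRing : IsNoetherianRing T]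
  [instIsAdicComplete : IsAdicComplete (maximalIdeal T) T]
  [instAlgebra : Algebra 𝒪 T]
  [instIsLocalHom : IsLocalHom (algebraMap 𝒪 T)]
  residue_surjective : Function.Surjective (residue T ∘ algebraMap 𝒪 T)
  /-- the local coordinates at the primes of `B'` -/
  z : m59ci_Iz T8 Tn → maximalIdeal T
  /-- the images of the free variables: generators of `𝔪_T` relative to `z` -/
  w : κ → maximalIdeal T
  gens : maximalIdeal T = (maximalIdeal 𝒪).map (algebraMap 𝒪 T) ⊔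
    Ideal.span (Set.range (Sum.elim (fun c => (z c : T)) (fun k => (w k : T))))
  /-- the unramified eigenvalue at `p` -/
  zT : T
  w_ka : (w ka : T) = εp • zT - 1
  /-- (R1) -/
  av : (w ka : T) * (w kv : T) = 0
  /-- the local relations at the primes of `B'` hold -/
  rel : ∀ γ : m59b_P 𝒪 T8 Tn κ →ₐ[𝒪] T, (∀ c, γ (X (m59ci_emb κ c)) = (z c : T)) →
    m59b_J 𝒪 κ a l8 t0 ln ≤ RingHom.ker (γ : m59b_P 𝒪 T8 Tn κ →+* T)
  /-- the actions on the free modules `M_k = (S ⧸ 𝔟)^(d k)` -/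
  act : ∀ k : Fin (m + 1), T →ₐ[𝒪] Matrix (Fin (d k)) (Fin (d k)) (MvPowerSeries (Fin rr) 𝒪 ⧸ 𝔟)
  /-- the Galois diamonds -/
  u : Fin rr → T
  u_mem : ∀ i, u i - 1 ∈ maximalIdeal T
  act_u : ∀ k i, act k (u i) = Matrix.scalar (Fin (d k)) (1 + Ideal.Quotient.mk 𝔟 (X i))
  /-- `α^*` -/
  A : ∀ k : Fin m, Matrix (Fin (d k.succ)) (Fin (d k.castSucc)) (MvPowerSeries (Fin rr) 𝒪 ⧸ 𝔟)
  /-- `β^*` -/
  B : ∀ k : Fin m, Matrix (Fin (d k.succ)) (Fin (d k.castSucc)) (MvPowerSeries (Fin rr) 𝒪 ⧸ 𝔟)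
  /-- `α_*` -/
  A' : ∀ k : Fin m, Matrix (Fin (d k.castSucc)) (Fin (d k.succ)) (MvPowerSeries (Fin rr) 𝒪 ⧸ 𝔟)
  /-- `β_*` -/
  B' : ∀ k : Fin m, Matrix (Fin (d k.castSucc)) (Fin (d k.succ)) (MvPowerSeries (Fin rr) 𝒪 ⧸ 𝔟)
  /-- the Hecke operator at the prime of the step, on `M_k` -/
  Tm : ∀ k : Fin m, Matrix (Fin (d k.castSucc)) (Fin (d k.castSucc))
    (MvPowerSeries (Fin rr) 𝒪 ⧸ 𝔟)
  A_act : ∀ k x, act k.succ x * A k = A k * act k.castSucc x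
  B_act : ∀ k x, act k.succ x * B k = B k * act k.castSucc x
  A'_act : ∀ k x, A' k * act k.succ x = act k.castSucc x * A' k
  B'_act : ∀ k x, B' k * act k.succ x = act k.castSucc x * B' k
  A'_A : ∀ k, A' k * A k = act k.castSucc (((m59ci3_lc l8 ln p (ch k) : ℕ) : T) + 1)
  B'_B : ∀ k, B' k * B k = act k.castSucc (((m59ci3_lc l8 ln p (ch k) : ℕ) : T) + 1)
  A'_B : ∀ k, A' k * B k = Tm k
  B'_A : ∀ k, B' k * A k = Tm k
  /-- at a prime of `B'` the Hecke operator is the trace coordinate -/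
  Tm_eq : ∀ k b, ch k = Sum.inl b → Tm k = act k.castSucc (m59ci_trT a t0 z b)
  /-- **(ES-p)₀** at the `p`-step -/
  Tm_nil : ∀ k, ch k = Sum.inr () →
    (act k.castSucc zT * Tm k - act k.castSucc (zT ^ 2 + (p : T))) ^ EE = 0
  /-- **(I1)** -/
  split : ∀ k, ∃ L1 L2 : Matrix (Fin (d k.castSucc)) (Fin (d k.succ))
      (MvPowerSeries (Fin rr) 𝒪 ⧸ 𝔟),
    L1 * A k = 1 ∧ L1 * B k = 0 ∧ L2 * A k = 0 ∧ L2 * B k = 1
  /-- **(I2)** -/
  onto : ∀ k, ∃ V1 : Matrix (Fin (d k.succ)) (Fin (d k.castSucc))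
      (MvPowerSeries (Fin rr) 𝒪 ⧸ 𝔟), A' k * V1 = 1 ∧ B' k * V1 = 0
  /-- **(I3)** at a prime of `B'` -/
  new : ∀ k b, ch k = Sum.inl b → ∃ Y1 Y2 : Matrix (Fin (d k.castSucc)) (Fin (d k.succ))
      (MvPowerSeries (Fin rr) 𝒪 ⧸ 𝔟),
    act k.succ ((m59ci_trT a t0 z b ^ 2 -
      (((m59ci_lc l8 ln b : ℕ) : T) + 1) ^ 2) ^ ee k) = A k * Y1 + B k * Y2
  /-- **(I3)** at `p` -/
  newp : ∀ k, ch k = Sum.inr () → ∃ Y1 Y2 : Matrix (Fin (d k.castSucc)) (Fin (d k.succ))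
      (MvPowerSeries (Fin rr) 𝒪 ⧸ 𝔟),
    act k.succ ((zT ^ 2 - 1) ^ ee k) = A k * Y1 + B k * Y2
  /-- **[UNR-0]** the base level is unramified at `B'` -/
  unr0 : ∀ i, act 0 (z (m59ci_embN i) : T) = 0
  /-- **(R2')** the base level is flat at `p` -/
  flat0 : ∃ c : T, c ∈ Ideal.span {algebraMap 𝒪 T lam} ⊔ maximalIdeal T ^ 2 ∧
    act 0 ((w kv : T) - c) = 0
  /-- the map to `T₀` -/
  π0 : T →ₐ[𝒪] T0
  π0_surjective : Function.Surjective π0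
  act_mod : ∀ t : T, (act (Fin.last m) t).map (Ideal.Quotient.factor h𝔟𝔞) = j (π0 t)
  π0_u : ∀ i, π0 (u i) = 1
  π0_ν : ∀ c, π0 (m59ci3_nuT a t0 z (w ka : T) c) = β c

attribute [instance] m59ci3_LvSys.instCommRing m59ci3_LvSys.instIsLocalRing
  m59ci3_LvSys.instIsNoetherianRing m59ci3_LvSys.instIsAdicComplete m59ci3_LvSys.instAlgebra
  m59ci3_LvSys.instIsLocalHom

/-! ### the presentation -/

section present

variable {𝒪 : Type} [CommRing 𝒪] [IsLocalRing 𝒪] [IsNoetherianRing 𝒪]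
  [IsAdicComplete (maximalIdeal 𝒪) 𝒪]
  {rr : ℕ} {m : ℕ} {d : Fin (m + 1) → ℕ} {T8 Tn κ : Type} [Fintype T8] [Fintype Tn] [Fintype κ]
  {a : T8 → 𝒪} {l8 : T8 → ℕ} {t0 : Tn → 𝒪} {ln : Tn → ℕ} {ka kv : κ} {p : ℕ} {εp : ℤ} {lam : 𝒪}
  {ch : Fin m → (T8 ⊕ Tn) ⊕ Unit} {ee : Fin m → ℕ} {EE : ℕ}
  {𝔞 𝔟 : Ideal (MvPowerSeries (Fin rr) 𝒪)} {h𝔟𝔞 : 𝔟 ≤ 𝔞}
  {T0 : Type} [CommRing T0] [Algebra 𝒪 T0]
  {j : T0 →+* Matrix (Fin (d (Fin.last m))) (Fin (d (Fin.last m)))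
    (MvPowerSeries (Fin rr) 𝒪 ⧸ 𝔞)}
  {β : ((T8 × Fin 6) ⊕ Tn) ⊕ Unit → T0}

/-- **the presentation** of the pair ring: `γ : m59b_P ↠ T`, coordinate variables `↦ z`, free
variables `↦ w`. -/
theorem m59ci3_sys_present
    (sys : m59ci3_LvSys 𝒪 rr d κ a l8 t0 ln ka kv p εp lam ch ee EE 𝔞 𝔟 h𝔟𝔞 T0 j β) :
    ∃ γ : m59b_P 𝒪 T8 Tn κ →ₐ[𝒪] sys.T, Function.Surjective γ ∧
      (∀ c, γ (X (m59ci_emb κ c)) = (sys.z c : sys.T)) ∧
      ∀ k, γ (X (Sum.inr (Sum.inr k))) = (sys.w k : sys.T) := by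
  classical
  let x : twb_r8_Idx T8 (m59b_Aux Tn κ) → sys.T :=
    Sum.elim (fun c => (sys.z (Sum.inl c) : sys.T))
      (Sum.elim (fun c => (sys.z (Sum.inr c) : sys.T)) (fun k => (sys.w k : sys.T)))
  have hrange : Set.range x =
      Set.range (Sum.elim (fun c => (sys.z c : sys.T)) (fun k => (sys.w k : sys.T))) := by
    ext y
    constructor
    · rintro ⟨(c | c | k), rfl⟩
      · exact ⟨Sum.inl (Sum.inl c), rfl⟩
      · exact ⟨Sum.inl (Sum.inr c), rfl⟩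
      · exact ⟨Sum.inr k, rfl⟩
    · rintro ⟨((c | c) | k), rfl⟩
      · exact ⟨Sum.inl c, rfl⟩
      · exact ⟨Sum.inr (Sum.inl c), rfl⟩
      · exact ⟨Sum.inr (Sum.inr k), rfl⟩
  have hgen : maximalIdeal sys.T = (maximalIdeal 𝒪).map (algebraMap 𝒪 sys.T) ⊔
      Ideal.span (Set.range x) := by
    rw [hrange]
    exact sys.gens
  have hx : ∀ v, x v ∈ maximalIdeal sys.T := by
    intro v
    rw [hgen]
    exact Ideal.mem_sup_right (Ideal.subset_span ⟨v, rfl⟩)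
  refine ⟨s56ps_eval (𝒪 := 𝒪) x hx, s56ps_eval_surjective sys.residue_surjective x hx hgen, ?_, ?_⟩
  · rintro (c | c)
    · show s56ps_eval (𝒪 := 𝒪) x hx (X (Sum.inl c)) = _
      rw [s56ps_eval_X]
      rfl
    · show s56ps_eval (𝒪 := 𝒪) x hx (X (Sum.inr (Sum.inl c))) = _
      rw [s56ps_eval_X]
      rfl
  · intro k
    show s56ps_eval (𝒪 := 𝒪) x hx (X (Sum.inr (Sum.inr k))) = _
    rw [s56ps_eval_X]
    rfl

end present

/-! ### the assembly -/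

section main

variable {𝒪 : Type} [CommRing 𝒪] [IsDomain 𝒪] [IsLocalRing 𝒪] [IsNoetherianRing 𝒪] [CharZero 𝒪]
  [IsAdicComplete (maximalIdeal 𝒪) 𝒪]
  {rr : ℕ} {m : ℕ} {d : Fin (m + 1) → ℕ} {e : Fin m → ℕ}
  {T8 Tn κ : Type} [Fintype T8] [Fintype Tn] [Fintype κ]
  {a : T8 → 𝒪} {l8 : T8 → ℕ} {t0 : Tn → 𝒪} {ln : Tn → ℕ} {ka kv : κ} {p : ℕ} {εp : ℤ} {lam : 𝒪}
  {ch : Fin m → (T8 ⊕ Tn) ⊕ Unit} {ee : Fin m → ℕ} {EE : ℕ}
  {𝔞 𝔟 : Ideal (MvPowerSeries (Fin rr) 𝒪)} {h𝔟𝔞 : 𝔟 ≤ 𝔞}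
  {T0 : Type} [CommRing T0] [Algebra 𝒪 T0]
  {j : T0 →+* Matrix (Fin (d (Fin.last m))) (Fin (d (Fin.last m)))
    (MvPowerSeries (Fin rr) 𝒪 ⧸ 𝔞)}
  {β : ((T8 × Fin 6) ⊕ Tn) ⊕ Unit → T0}

/-- the one-step datum of the chain level, common shape of the two kinds of steps. -/
theorem m59ci3_step_exists {Λ R : Type*} [CommRing Λ] [IsLocalRing Λ] [CommRing R]
    {d₀ d₁ e₀ : ℕ} (he : e₀ + 2 * d₀ = d₁)
    (al : R →+* Matrix (Fin d₀) (Fin d₀) Λ) (al' : R →+* Matrix (Fin d₁) (Fin d₁) Λ)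
    (A B : Matrix (Fin d₁) (Fin d₀) Λ) (A' B' : Matrix (Fin d₀) (Fin d₁) Λ)
    (l : ℕ) (ε : ℤ) (hε : ε * ε = 1) (Tm : Matrix (Fin d₀) (Fin d₀) Λ)
    (hA : ∀ f, al' f * A = A * al f) (hB : ∀ f, al' f * B = B * al f)
    (hA' : ∀ f, A' * al' f = al f * A') (hB' : ∀ f, B' * al' f = al f * B')
    (hAA : A' * A = al ((l : R) + 1)) (hBB : B' * B = al ((l : R) + 1))
    (hAB : A' * B = Tm) (hBA : B' * A = Tm)
    (hsplit : ∃ L1 L2 : Matrix (Fin d₀) (Fin d₁) Λ,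
      L1 * A = 1 ∧ L1 * B = 0 ∧ L2 * A = 0 ∧ L2 * B = 1)
    (honto : ∃ V1 : Matrix (Fin d₁) (Fin d₀) Λ, A' * V1 = 1 ∧ B' * V1 = 0)
    (r s : R) (hY : ∃ Y1 Y2 : Matrix (Fin d₀) (Fin d₁) Λ, al' r = A * Y1 + B * Y2)
    (EE : ℕ) (hnil : ((al ((l : R) + 1) - ε • Tm) - al s) ^ EE = 0) :
    ∃ (p : Matrix (Fin e₀) (Fin d₁) Λ) (q : Matrix (Fin d₁) (Fin e₀) Λ)
      (alN : R →+* Matrix (Fin e₀) (Fin e₀) Λ) (ρ' : Matrix (Fin d₁) (Fin d₀) Λ)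
      (Z : Matrix (Fin d₀) (Fin d₁) Λ) (X : Matrix (Fin d₀) (Fin d₀) Λ),
      p * q = 1 ∧ (∀ f, p * al' f = alN f * p) ∧
      (A' - ε • B') * ρ' = 1 ∧ (∀ f, (A' - ε • B') * al' f = al f * (A' - ε • B')) ∧
      (A' - ε • B') * (1 - q * p) = X * Z ∧ alN r = 0 ∧
      (∀ f, X * al f = al f * X) ∧ (X - al s) ^ EE = 0 ∧ (∀ f, alN f = p * al' f * q) := by
  obtain ⟨L1, L2, hL1A, hL1B, hL2A, hL2B⟩ := hsplit
  obtain ⟨V1, hAV, hBV⟩ := honto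
  obtain ⟨Y1, Y2, hYk⟩ := hY
  obtain ⟨p, q, alN, h1, h2, h3, h4, h5, h6, h7⟩ := m59p_abs_stepP he al al' A B A' B' l ε hε Tm
    hA hB hA' hB' hAA hBB hAB hBA L1 L2 hL1A hL1B hL2A hL2B V1 hAV hBV r Y1 Y2 hYk
  refine ⟨p, q, alN, V1, L1 - ε • L2, al ((l : R) + 1) - ε • Tm, h1, h2, h3, h4, h5, h6, h7, hnil,
    fun f => ?_⟩
  rw [h2 f, Matrix.mul_assoc, h1, Matrix.mul_one]

/-- preimages of elements of `(f x) + 𝔪²` under a surjective homomorphism of local rings. -/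
theorem m59ci3_exists_preimage {R T : Type*} [CommRing R] [CommRing T] [IsLocalRing R]
    [IsLocalRing T] (f : R →+* T) (hf : Function.Surjective f) (x : R) (c : T)
    (hc : c ∈ Ideal.span {f x} ⊔ maximalIdeal T ^ 2) :
    ∃ c' : R, c' ∈ Ideal.span {x} ⊔ maximalIdeal R ^ 2 ∧ f c' = c := by
  have hmax : maximalIdeal T ≤ (maximalIdeal R).map f := by
    intro t ht
    obtain ⟨r, rfl⟩ := hf t
    refine Ideal.mem_map_of_mem _ ?_
    rw [mem_maximalIdeal, mem_nonunits_iff] at ht ⊢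
    exact fun hu => ht (hu.map f)
  have hle : Ideal.span {f x} ⊔ maximalIdeal T ^ 2 ≤
      (Ideal.span {x} ⊔ maximalIdeal R ^ 2).map f := by
    rw [Ideal.map_sup, Ideal.map_span, Set.image_singleton, Ideal.map_pow]
    exact sup_le_sup le_rfl (Ideal.pow_right_mono hmax 2)
  obtain ⟨c', h1, h2⟩ := (Ideal.mem_map_iff_of_surjective f hf).1 (hle hc)
  exact ⟨c', h1, h2⟩

/-- the images of the coordinates `ν` of case (III) under a presentation. -/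
theorem m59ci3_gamma_nu {T : Type} [CommRing T] [IsLocalRing T] [Algebra 𝒪 T]
    {z : m59ci_Iz T8 Tn → maximalIdeal T} {aT : T}
    {γ : m59b_P 𝒪 T8 Tn κ →ₐ[𝒪] T} (hγ : ∀ c, γ (X (m59ci_emb κ c)) = (z c : T))
    (hγa : γ (X (Sum.inr (Sum.inr ka))) = aT)
    (lift : m59lp_Rp 𝒪 κ a l8 t0 ln ka kv →ₐ[𝒪] T)
    (hlift : ∀ f, lift (Ideal.Quotient.mk _ f) = γ f) (c : ((T8 × Fin 6) ⊕ Tn) ⊕ Unit) :
    lift (m59ci3_nu κ a l8 t0 ln ka kv c) = m59ci3_nuT a t0 z aT c := by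
  rcases c with (⟨t, i⟩ | l) | u
  · fin_cases i
    · exact (hlift _).trans (m59ci_gamma_Phi hγ t 0 0)
    · exact (hlift _).trans (m59ci_gamma_Phi hγ t 1 0)
    · exact (hlift _).trans (m59ci_gamma_Phi hγ t 1 1)
    · exact (hlift _).trans (hγ (Sum.inl (t, 0, 0, 0)))
    · exact (hlift _).trans (hγ (Sum.inl (t, 0, 1, 0)))
    · exact (hlift _).trans (hγ (Sum.inl (t, 0, 1, 1)))
  · exact (hlift _).trans (m59ci_gamma_tP (a := a) (t0 := t0) hγ (Sum.inr l))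
  · exact (hlift _).trans hγa

/-- **C/Level for the chain of case (III)**: the level datum of block [D'] from a chain system with
the `p`-step. -/
theorem m59ci3_level_of_sys
    [IsLocalRing (m59lp_Rp 𝒪 κ a l8 t0 ln ka kv)]
    [IsAdicComplete (maximalIdeal (m59lp_Rp 𝒪 κ a l8 t0 ln ka kv)) (m59lp_Rp 𝒪 κ a l8 t0 ln ka kv)]
    (h𝔞 : 𝔞 ≠ ⊤)
    (hS : ∀ k : ℕ, Finite (MvPowerSeries (Fin rr) 𝒪 ⧸ maximalIdeal (MvPowerSeries (Fin rr) 𝒪) ^ k))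
    (I0 : Ideal T0) [IsHausdorff I0 T0] (hT0 : ∀ N : ℕ, Finite (T0 ⧸ I0 ^ N))
    (he : ∀ k : Fin m, e k + 2 * d k.castSucc = d k.succ) (hEE : EE ≠ 0)
    (hεp : εp * εp = 1)
    (ε8 : T8 → ℤ) (hε8 : ∀ t, ε8 t * ε8 t = 1) (εn : Tn → ℤ) (hεn : ∀ l, εn l * εn l = 1)
    {K : Type} (γ : K → T0)
    (sys : m59ci3_LvSys 𝒪 rr d κ a l8 t0 ln ka kv p εp lam ch ee EE 𝔞 𝔟 h𝔟𝔞 T0 j β) :
    Nonempty (m59d_ChainLevel 𝒪 (MvPowerSeries (Fin rr) 𝒪) (m59lp_Rp 𝒪 κ a l8 t0 ln ka kv) T0 d e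
      EE 𝔞 𝔟 h𝔟𝔞 j (m59ci_theta 𝒪 rr T0) (m59lp_uRp a l8 t0 ln ka kv)
      (m59lp_cc lam a l8 t0 ln ka kv) (m59ci3_nu κ a l8 t0 ln ka kv) β γ
      (m59ci3_r κ a l8 t0 ln ka kv ch ee) (m59ci3_s κ a l8 t0 ln ka kv ch p εp ε8 εn)) := by
  classical
  have h𝔟 : 𝔟 ≠ ⊤ := fun h => h𝔞 (top_le_iff.mp (h ▸ h𝔟𝔞))
  haveI := twc_lv_B_isLocalRing h𝔟
  have hfinB := twc_lv_B_finite (𝔟 := 𝔟) hS
  obtain ⟨γ0, hγs, hγz, hγw⟩ := m59ci3_sys_present sys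
  have hJ0 : ∀ f ∈ m59b_J 𝒪 κ a l8 t0 ln, γ0 f = 0 :=
    fun f hf => RingHom.mem_ker.1 (sys.rel γ0 hγz hf)
  have hJ : ∀ f ∈ m59lp_Jp 𝒪 κ a l8 t0 ln ka kv, γ0 f = 0 := by
    have hle : m59lp_Jp 𝒪 κ a l8 t0 ln ka kv ≤ RingHom.ker (γ0 : m59b_P 𝒪 T8 Tn κ →+* sys.T) := by
      rw [m59lp_Jp_le_iff]
      refine ⟨fun f hf => RingHom.mem_ker.2 (hJ0 f hf), ?_⟩
      rw [RingHom.mem_ker]
      show γ0 (X (Sum.inr (Sum.inr ka)) * X (Sum.inr (Sum.inr kv))) = 0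
      rw [map_mul, hγw, hγw]
      exact sys.av
    exact fun f hf => RingHom.mem_ker.1 (hle hf)
  obtain ⟨lift, hlift⟩ : ∃ lift : m59lp_Rp 𝒪 κ a l8 t0 ln ka kv →ₐ[𝒪] sys.T,
      ∀ f, lift (Ideal.Quotient.mk _ f) = γ0 f :=
    ⟨Ideal.Quotient.liftₐ (m59lp_Jp 𝒪 κ a l8 t0 ln ka kv) γ0 hJ, fun f => rfl⟩
  have hlift_surj : Function.Surjective lift := by
    intro t
    obtain ⟨f, rfl⟩ := hγs t
    exact ⟨Ideal.Quotient.mk _ f, hlift f⟩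
  have hlift_surjR : Function.Surjective (lift : m59lp_Rp 𝒪 κ a l8 t0 ln ka kv →+* sys.T) :=
    hlift_surj
  -- `σ`
  have hY : ∀ i : Fin rr, ∃ Y : m59b_P 𝒪 T8 Tn κ, γ0 Y = sys.u i - 1 := fun i => hγs _
  choose Y hY using hY
  have hmem : ∀ i, Ideal.Quotient.mk (m59lp_Jp 𝒪 κ a l8 t0 ln ka kv) (Y i) ∈
      maximalIdeal (m59lp_Rp 𝒪 κ a l8 t0 ln ka kv) := by
    intro i
    rw [mem_maximalIdeal, mem_nonunits_iff]
    intro hu
    have h1 : IsUnit (lift (Ideal.Quotient.mk _ (Y i))) := hu.map lift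
    rw [hlift, hY i] at h1
    exact (mem_maximalIdeal _).1 (sys.u_mem i) h1
  obtain ⟨σ, hσ0⟩ : ∃ σ : MvPowerSeries (Fin rr) 𝒪 →ₐ[𝒪] m59lp_Rp 𝒪 κ a l8 t0 ln ka kv,
      ∀ i, σ (X i) = Ideal.Quotient.mk (m59lp_Jp 𝒪 κ a l8 t0 ln ka kv) (Y i) :=
    ⟨s56ps_eval (𝒪 := 𝒪)
      (fun i => Ideal.Quotient.mk (m59lp_Jp 𝒪 κ a l8 t0 ln ka kv) (Y i)) hmem,
      fun i => s56ps_eval_X _ hmem i⟩
  have hσX : ∀ i, lift (σ (X i)) = sys.u i - 1 := by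
    intro i
    rw [hσ0, hlift, hY i]
  -- `α`
  let α : ∀ k : Fin (m + 1), m59lp_Rp 𝒪 κ a l8 t0 ln ka kv →+*
      Matrix (Fin (d k)) (Fin (d k)) (MvPowerSeries (Fin rr) 𝒪 ⧸ 𝔟) :=
    fun k => (((sys.act k).comp lift : _ →ₐ[𝒪] _) : _ →+* _)
  have hα : ∀ k f, α k f = sys.act k (lift f) := fun k f => rfl
  have hασ : ∀ k s, α k (σ s) = Matrix.scalar (Fin (d k)) (Ideal.Quotient.mk 𝔟 s) := by
    intro k
    let f1 : MvPowerSeries (Fin rr) 𝒪 →+*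
        Matrix (Fin (d k)) (Fin (d k)) (MvPowerSeries (Fin rr) 𝒪 ⧸ 𝔟) :=
      ((((sys.act k).comp lift).comp σ : _ →ₐ[𝒪] _) : _ →+* _)
    let f2 : MvPowerSeries (Fin rr) 𝒪 →+*
        Matrix (Fin (d k)) (Fin (d k)) (MvPowerSeries (Fin rr) 𝒪 ⧸ 𝔟) :=
      (Matrix.scalar (Fin (d k))).comp (Ideal.Quotient.mk 𝔟)
    have key : f1 = f2 := by
      refine twc_lv_ringHom_ext_matrix hfinB f1 f2 ?_ ?_
      · intro c
        show (((sys.act k).comp lift).comp σ) (C c) =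
          Matrix.scalar (Fin (d k)) (Ideal.Quotient.mk 𝔟 (C c))
        rw [show (C c : MvPowerSeries (Fin rr) 𝒪) = algebraMap 𝒪 _ c from rfl, AlgHom.commutes,
          Matrix.algebraMap_eq_diagonal]
        rfl
      · intro i
        show sys.act k (lift (σ (X i))) = Matrix.scalar (Fin (d k)) (Ideal.Quotient.mk 𝔟 (X i))
        rw [hσX, map_sub, map_one, sys.act_u k i, map_add, map_one, add_sub_cancel_left]
    intro s
    exact RingHom.congr_fun key s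
  -- the unramified eigenvalue
  set zR : m59lp_Rp 𝒪 κ a l8 t0 ln ka kv :=
    Ideal.Quotient.mk _ (m59ci3_zp 𝒪 T8 Tn κ ka εp) with hzR
  set ziR : m59lp_Rp 𝒪 κ a l8 t0 ln ka kv :=
    Ideal.Quotient.mk _ (m59ci3_zpi 𝒪 T8 Tn κ ka εp) with hziR
  have hzz : zR * ziR = 1 := by
    rw [hzR, hziR, ← map_mul, m59ci3_zp_mul κ ka εp hεp, map_one]
  have hεε : ((εp : ℤ) : sys.T) * ((εp : ℤ) : sys.T) = 1 := by
    rw [← Int.cast_mul, hεp, Int.cast_one]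
  have hliftz : lift zR = sys.zT := by
    rw [hzR, hlift]
    unfold m59ci3_zp
    rw [map_mul, map_intCast, map_add, map_one, hγw, sys.w_ka, zsmul_eq_mul]
    linear_combination sys.zT * hεε
  have hliftr : lift (Ideal.Quotient.mk _ (m59ci3_rp 𝒪 T8 Tn κ ka)) = sys.zT ^ 2 - 1 := by
    rw [← m59ci3_zp_sq κ ka εp hεp, map_sub, map_pow, map_one, map_sub, map_pow, map_one,
      ← hzR, hliftz]
  -- the signs
  let εc : Fin m → ℤ := fun k => Sum.elim (Sum.elim ε8 εn) (fun _ => εp) (ch k)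
  have hεc : ∀ k, εc k * εc k = 1 := by
    intro k
    show Sum.elim (Sum.elim ε8 εn) (fun _ => εp) (ch k) *
      Sum.elim (Sum.elim ε8 εn) (fun _ => εp) (ch k) = 1
    rcases ch k with (t | l) | u
    · exact hε8 t
    · exact hεn l
    · exact hεp
  have hl : ∀ k, lift (((m59ci3_lc l8 ln p (ch k) : ℕ) : m59lp_Rp 𝒪 κ a l8 t0 ln ka kv) + 1) =
      ((m59ci3_lc l8 ln p (ch k) : ℕ) : sys.T) + 1 := by
    intro k
    rw [map_add, map_natCast, map_one]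
  -- the steps
  have hstep : ∀ k : Fin m, ∃ (p' : Matrix (Fin (e k)) (Fin (d k.succ)) (MvPowerSeries (Fin rr) 𝒪 ⧸ 𝔟))
      (q : Matrix (Fin (d k.succ)) (Fin (e k)) (MvPowerSeries (Fin rr) 𝒪 ⧸ 𝔟))
      (alN : m59lp_Rp 𝒪 κ a l8 t0 ln ka kv →+*
        Matrix (Fin (e k)) (Fin (e k)) (MvPowerSeries (Fin rr) 𝒪 ⧸ 𝔟))
      (ρ' : Matrix (Fin (d k.succ)) (Fin (d k.castSucc)) (MvPowerSeries (Fin rr) 𝒪 ⧸ 𝔟))
      (Z : Matrix (Fin (d k.castSucc)) (Fin (d k.succ)) (MvPowerSeries (Fin rr) 𝒪 ⧸ 𝔟))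
      (X' : Matrix (Fin (d k.castSucc)) (Fin (d k.castSucc)) (MvPowerSeries (Fin rr) 𝒪 ⧸ 𝔟)),
      p' * q = 1 ∧ (∀ f, p' * α k.succ f = alN f * p') ∧
      (sys.A' k - εc k • sys.B' k) * ρ' = 1 ∧
      (∀ f, (sys.A' k - εc k • sys.B' k) * α k.succ f =
        α k.castSucc f * (sys.A' k - εc k • sys.B' k)) ∧
      (sys.A' k - εc k • sys.B' k) * (1 - q * p') = X' * Z ∧
      alN (m59ci3_r κ a l8 t0 ln ka kv ch ee k) = 0 ∧
      (∀ f, X' * α k.castSucc f = α k.castSucc f * X') ∧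
      (X' - α k.castSucc (m59ci3_s κ a l8 t0 ln ka kv ch p εp ε8 εn k)) ^ EE = 0 ∧
      (∀ f, alN f = p' * α k.succ f * q) := by
    intro k
    have hTc : ∀ f, sys.Tm k * α k.castSucc f = α k.castSucc f * sys.Tm k := fun f =>
      m59p_abs_Tm_comm (α k.castSucc) (α k.succ) (sys.B k) (sys.A' k) (sys.Tm k)
        (fun f => sys.B_act k (lift f)) (fun f => sys.A'_act k (lift f)) (sys.A'_B k) f
    obtain ⟨L1, L2, hL1A, hL1B, hL2A, hL2B⟩ := sys.split k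
    obtain ⟨V1, hAV, hBV⟩ := sys.onto k
    -- the element of (I3) and the nilpotence, by cases on the kind of step
    have hkind : (∃ Y1 Y2 : Matrix (Fin (d k.castSucc)) (Fin (d k.succ))
          (MvPowerSeries (Fin rr) 𝒪 ⧸ 𝔟),
          α k.succ (m59ci3_r κ a l8 t0 ln ka kv ch ee k) = sys.A k * Y1 + sys.B k * Y2) ∧
        ((α k.castSucc (((m59ci3_lc l8 ln p (ch k) : ℕ) : m59lp_Rp 𝒪 κ a l8 t0 ln ka kv) + 1) -
          εc k • sys.Tm k) -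
          α k.castSucc (m59ci3_s κ a l8 t0 ln ka kv ch p εp ε8 εn k)) ^ EE = 0 := by
      rcases hck : ch k with b | u
      · -- a prime of `B'`
        have htR : lift (Ideal.Quotient.mk _ (m59ci_tP κ a t0 b)) = m59ci_trT a t0 sys.z b :=
          (hlift _).trans (m59ci_gamma_tP (a := a) (t0 := t0) hγz b)
        constructor
        · obtain ⟨Y1, Y2, hYk⟩ := sys.new k b hck
          refine ⟨Y1, Y2, ?_⟩
          have hlr : lift (m59ci3_r κ a l8 t0 ln ka kv ch ee k) =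
              (m59ci_trT a t0 sys.z b ^ 2 - (((m59ci_lc l8 ln b : ℕ) : sys.T) + 1) ^ 2) ^ ee k := by
            show lift (Ideal.Quotient.mk _ (m59lp_r κ a l8 t0 ln (m59ci3_rp 𝒪 T8 Tn κ ka) (ch k)) ^
              ee k) = _
            rw [hck]
            show lift (Ideal.Quotient.mk _ (m59lw_r κ a l8 t0 ln b) ^ ee k) = _
            rw [m59ci_lw_r_eq]
            simp only [map_pow, map_sub, map_add, map_one, map_natCast]
            rw [htR]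
          rw [hα, hlr]
          exact hYk
        · have hs : m59ci3_s κ a l8 t0 ln ka kv ch p εp ε8 εn k =
              (((m59ci_lc l8 ln b : ℕ) : m59lp_Rp 𝒪 κ a l8 t0 ln ka kv) + 1) -
                (Sum.elim ε8 εn b) • Ideal.Quotient.mk _ (m59ci_tP κ a t0 b) := by
            show Ideal.Quotient.mk _
              (m59lp_s κ a l8 t0 ln ε8 εn (m59ci3_sp 𝒪 T8 Tn κ ka p εp) (ch k)) = _
            rw [hck]
            show Ideal.Quotient.mk _ (m59lw_s κ a l8 t0 ln ε8 εn b) = _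
            rw [m59ci_lw_s_eq, map_sub, map_add, map_one, map_natCast, map_mul, map_intCast,
              zsmul_eq_mul]
          have hTm : sys.Tm k = α k.castSucc (Ideal.Quotient.mk _ (m59ci_tP κ a t0 b)) := by
            rw [hα, htR]
            exact sys.Tm_eq k b hck
          have hεk : εc k = Sum.elim ε8 εn b := by
            show Sum.elim (Sum.elim ε8 εn) (fun _ => εp) (ch k) = _
            rw [hck]
            rfl
          have hlk : m59ci3_lc l8 ln p (Sum.inl b) = m59ci_lc l8 ln b := rfl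
          rw [hs, hTm, hεk, hlk, map_sub, map_zsmul, sub_self]
          exact zero_pow hEE
      · -- the prime `p`
        obtain rfl : u = () := rfl
        constructor
        · obtain ⟨Y1, Y2, hYk⟩ := sys.newp k hck
          refine ⟨Y1, Y2, ?_⟩
          have hlr : lift (m59ci3_r κ a l8 t0 ln ka kv ch ee k) = (sys.zT ^ 2 - 1) ^ ee k := by
            show lift (Ideal.Quotient.mk _ (m59lp_r κ a l8 t0 ln (m59ci3_rp 𝒪 T8 Tn κ ka) (ch k)) ^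
              ee k) = _
            rw [hck]
            show lift (Ideal.Quotient.mk _ (m59ci3_rp 𝒪 T8 Tn κ ka) ^ ee k) = _
            rw [map_pow, hliftr]
          rw [hα, hlr]
          exact hYk
        · have hs : m59ci3_s κ a l8 t0 ln ka kv ch p εp ε8 εn k =
              (((p : ℕ) : m59lp_Rp 𝒪 κ a l8 t0 ln ka kv) + 1) -
                εp • (zR + ((p : ℕ) : m59lp_Rp 𝒪 κ a l8 t0 ln ka kv) * ziR) := by
            show Ideal.Quotient.mk _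
              (m59lp_s κ a l8 t0 ln ε8 εn (m59ci3_sp 𝒪 T8 Tn κ ka p εp) (ch k)) = _
            rw [hck]
            show Ideal.Quotient.mk _ (m59ci3_sp 𝒪 T8 Tn κ ka p εp) = _
            unfold m59ci3_sp
            rw [map_sub, map_add, map_one, map_natCast, map_zsmul, map_add, map_mul, map_natCast]
          have hεk : εc k = εp := by
            show Sum.elim (Sum.elim ε8 εn) (fun _ => εp) (ch k) = _
            rw [hck]
            rfl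
          have hlk : m59ci3_lc (T8 := T8) (Tn := Tn) l8 ln p (Sum.inr ()) = p := rfl
          rw [hs, hεk, hlk]
          refine m59p_abs_X_nil (α k.castSucc) p εp (sys.Tm k) hTc zR ziR hzz EE ?_
          have h1 := sys.Tm_nil k hck
          rw [hα, hα, map_add, map_pow, map_natCast, hliftz]
          exact h1
    obtain ⟨hYk, hnil⟩ := hkind
    obtain ⟨p', q, alN, ρ', Z, X', h1, h2, h3, h4, h5, h6, h7, h8, h9⟩ :=
      m59ci3_step_exists (he k) (α k.castSucc) (α k.succ) (sys.A k) (sys.B k) (sys.A' k)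
        (sys.B' k) (m59ci3_lc l8 ln p (ch k)) (εc k) (hεc k) (sys.Tm k)
        (fun f => sys.A_act k (lift f)) (fun f => sys.B_act k (lift f))
        (fun f => sys.A'_act k (lift f)) (fun f => sys.B'_act k (lift f))
        (by rw [hα, hl]; exact sys.A'_A k) (by rw [hα, hl]; exact sys.B'_B k)
        (sys.A'_B k) (sys.B'_A k) ⟨L1, L2, hL1A, hL1B, hL2A, hL2B⟩ ⟨V1, hAV, hBV⟩
        (m59ci3_r κ a l8 t0 ln ka kv ch ee k) (m59ci3_s κ a l8 t0 ln ka kv ch p εp ε8 εn k)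
        hYk EE hnil
    exact ⟨p', q, alN, ρ', Z, X', h1, h2, h3, h4, h5, h6, h7, h8, h9⟩
  choose p' q alN ρ' Z X' h1 h2 h3 h4 h5 h6 h7 h8 h9 using hstep
  -- `π`
  let π : m59lp_Rp 𝒪 κ a l8 t0 ln ka kv →+* T0 := ((sys.π0.comp lift : _ →ₐ[𝒪] T0) : _ →+* T0)
  have hπ : ∀ f, π f = sys.π0 (lift f) := fun f => rfl
  have hπsurj : Function.Surjective π := fun t => by
    obtain ⟨t', rfl⟩ := sys.π0_surjective t
    obtain ⟨f, rfl⟩ := hlift_surj t'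
    exact ⟨f, rfl⟩
  have hνn : ∀ c : K, ∃ f : m59lp_Rp 𝒪 κ a l8 t0 ln ka kv, π f = γ c := fun c => hπsurj _
  choose νn hνn using hνn
  have hπσ : ∀ t, π (σ t) = m59ci_theta 𝒪 rr T0 t := by
    have key : π.comp (σ : MvPowerSeries (Fin rr) 𝒪 →+* m59lp_Rp 𝒪 κ a l8 t0 ln ka kv) =
        m59ci_theta 𝒪 rr T0 := by
      refine m59ci_ringHom_ext_T0 I0 hT0 _ _ ?_ ?_
      · intro c
        show sys.π0 (lift (σ (C c))) = m59ci_theta 𝒪 rr T0 (C c)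
        rw [show (C c : MvPowerSeries (Fin rr) 𝒪) = algebraMap 𝒪 _ c from rfl, AlgHom.commutes,
          AlgHom.commutes, AlgHom.commutes, m59ci_theta_algebraMap]
      · intro i
        show sys.π0 (lift (σ (X i))) = m59ci_theta 𝒪 rr T0 (X i)
        rw [hσX, map_sub, map_one, sys.π0_u, sub_self]
        simp [m59ci_theta]
    intro t
    exact RingHom.congr_fun key t
  -- the flat clause at the level `0`
  obtain ⟨c, hc, hc0⟩ := sys.flat0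
  have hc' : ∃ c' : m59lp_Rp 𝒪 κ a l8 t0 ln ka kv,
      c' ∈ Ideal.span {algebraMap 𝒪 (m59lp_Rp 𝒪 κ a l8 t0 ln ka kv) lam} ⊔
        maximalIdeal (m59lp_Rp 𝒪 κ a l8 t0 ln ka kv) ^ 2 ∧ lift c' = c := by
    have hcc : c ∈ Ideal.span {(lift : m59lp_Rp 𝒪 κ a l8 t0 ln ka kv →+* sys.T)
        (algebraMap 𝒪 (m59lp_Rp 𝒪 κ a l8 t0 ln ka kv) lam)} ⊔ maximalIdeal sys.T ^ 2 := by
      have e : (lift : m59lp_Rp 𝒪 κ a l8 t0 ln ka kv →+* sys.T) (algebraMap 𝒪 (m59lp_Rp 𝒪 κ a l8 t0 ln ka kv) lam) =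
          algebraMap 𝒪 sys.T lam := lift.commutes lam
      rw [e]
      exact hc
    exact m59ci3_exists_preimage (lift : m59lp_Rp 𝒪 κ a l8 t0 ln ka kv →+* sys.T) hlift_surjR _ c hcc
  obtain ⟨c', hc'1, hc'2⟩ := hc'
  exact ⟨{
    σ := (σ : MvPowerSeries (Fin rr) 𝒪 →+* m59lp_Rp 𝒪 κ a l8 t0 ln ka kv)
    σ_algebraMap := σ.commutes
    α := α
    α_σ := hασ
    αN := alN
    αN_σ := fun k t => by
      have h := hασ k.succ t
      rw [h9]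
      show p' k * α k.succ (σ t) * q k = _
      rw [h]
      exact m59ci_mul_scalar_mul (p' k) (q k) (h1 k) _
    p := p'
    q := q
    j' := fun k => sys.A' k - εc k • sys.B' k
    ρ' := ρ'
    Z := Z
    X := X'
    p_q := h1
    p_α := h2
    j'_ρ' := h3
    j'_α := h4
    X_comm := h7
    X_nil := h8
    j'_Z := h5
    αN_r := h6
    un := Sum.elim (fun i => m59lp_uRp a l8 t0 ln ka kv (Sum.inl i))
      (fun _ => m59lp_uRp a l8 t0 ln ka kv (Sum.inr ()) - c')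
    α_un := fun i => by
      rcases i with i | u
      · show sys.act 0 (lift (Ideal.Quotient.mk _ (m59b_u 𝒪 κ i))) = 0
        rw [hlift, m59ci_gamma_u hγz]
        exact sys.unr0 i
      · show sys.act 0 (lift (Ideal.Quotient.mk _ (X (Sum.inr (Sum.inr kv))) - c')) = 0
        rw [map_sub, hlift, hγw, hc'2]
        exact hc0
    un_u := fun i => by
      rcases i with i | u
      · show m59lp_uRp a l8 t0 ln ka kv (Sum.inl i) - m59lp_uRp a l8 t0 ln ka kv (Sum.inl i) ∈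
          (⊥ : Ideal (m59lp_Rp 𝒪 κ a l8 t0 ln ka kv))
        rw [sub_self]
        exact Ideal.zero_mem _
      · show m59lp_uRp a l8 t0 ln ka kv (Sum.inr ()) - c' -
            m59lp_uRp a l8 t0 ln ka kv (Sum.inr u) ∈
          Ideal.span {algebraMap 𝒪 (m59lp_Rp 𝒪 κ a l8 t0 ln ka kv) lam} ⊔
            maximalIdeal (m59lp_Rp 𝒪 κ a l8 t0 ln ka kv) ^ 2
        have : m59lp_uRp a l8 t0 ln ka kv (Sum.inr ()) - c' -
            m59lp_uRp a l8 t0 ln ka kv (Sum.inr u) = -c' := by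
          obtain rfl : u = () := rfl
          ring
        rw [this]
        exact (Ideal.neg_mem_iff _).2 hc'1
    π := π
    α_mod := fun f => sys.act_mod (lift f)
    π_ν := fun c => by
      rw [hπ, m59ci3_gamma_nu hγz (hγw ka) lift hlift c]
      exact sys.π0_ν c
    νn := νn
    π_νn := hνn
    π_σ := hπσ }⟩

end main

/-! ### the cut of [CI3-LEVEL] -/

open Polynomial CuspForm WeierstrassCurve in
/-- **[CI3-SYS]** (case (III), issue 3): `m59ci3S_Level_stmt` with, for every `n`, a chain system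
`m59ci3_LvSys` in place of the level datum `m59d_ChainLevel` (and the rank condition
`e k + 2 d k = d (k + 1)`, `EE ≠ 0`). -/
def m59ci3S_Sys_stmt (Peu : m59e_PeuPred) : Prop :=
  ∀ (p : ℕ) [Fact p.Prime], p = 3 ∨ p = 5 → ∀ W : WeierstrassCurve ℤ, W.Δ ≠ 0 →
    W.IsSemistableModel →
  ∀ (𝒪 : Type) [CommRing 𝒪] [IsDomain 𝒪] [IsDiscreteValuationRing 𝒪]
    [IsAdicComplete (maximalIdeal 𝒪) 𝒪] [Finite (ResidueField 𝒪)] [CharZero 𝒪],
    (p : 𝒪) ∈ maximalIdeal 𝒪 → (∃ ζ : 𝒪, IsPrimitiveRoot ζ p) →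
  ∀ ρ : GaloisRepAdic 𝒪, m59e_IsTate p W ρ → ρ.IsStrictOrdinaryAt p →
  ∀ (S : Finset ℕ) (N₁ : ℕ), m59e_IsBadSet W p S → Squarefree N₁ →
    (∀ ℓ : ℕ, ℓ.Prime → ℓ ∣ N₁ → ℓ ∈ S) →
    m59e_Occ p W S N₁ →
    (∀ q : ℕ, q.Prime → q ≠ p → q ∣ N₁ → ¬ ρ.residual.IsUnramifiedAt q) →
    ¬ W.IsGoodPrimeFor p → ¬ p ∣ N₁ →
  ∀ lam : 𝒪, maximalIdeal 𝒪 = Ideal.span {lam} →
    ∃ (S' : Finset ℕ) (N : ℕ) (_ : NeZero N),
      S ⊆ S' ∧ Squarefree N ∧ (∀ ℓ : ℕ, ℓ.Prime → ℓ ∣ N → ℓ ∈ S') ∧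
      ∃ (T8 Tn κ : Type) (_ : Fintype T8) (_ : Fintype Tn) (_ : Fintype κ)
        (a : T8 → 𝒪) (l8 : T8 → ℕ) (t0 : Tn → 𝒪) (ln : Tn → ℕ) (ε8 : T8 → ℤ) (εn : Tn → ℤ)
        (ka kv : κ) (εp : ℤ)
        (m : ℕ) (ch : Fin m → (T8 ⊕ Tn) ⊕ Unit) (ee : Fin m → ℕ) (rr : ℕ)
        (d : Fin (m + 1) → ℕ) (e : Fin m → ℕ) (EE : ℕ)
        (T0 : Type) (_ : CommRing T0) (_ : Algebra 𝒪 T0) (_ : Module.Finite 𝒪 T0)
        (x₂ : T0 →ₐ[𝒪] 𝒪)
        (j : T0 →+* Matrix (Fin (d (Fin.last m))) (Fin (d (Fin.last m)))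
          (MvPowerSeries (Fin rr) 𝒪 ⧸ twds_a 𝒪 rr))
        (β : ((T8 × Fin 6) ⊕ Tn) ⊕ Unit → T0)
        (act : heckeAlgebra N 2 (↑S' : Set ℕ) →+*
          Matrix (Fin (d (Fin.last m))) (Fin (d (Fin.last m)))
            (MvPowerSeries (Fin rr) 𝒪 ⧸ twds_a 𝒪 rr)),
        Function.Bijective ch ∧ ka ≠ kv ∧ εp * εp = 1 ∧
        (∀ t, l8 t % p = 1) ∧ (∀ t, 2 ≤ l8 t) ∧
        (∀ t, a t ^ 2 - (l8 t : 𝒪) ∈ maximalIdeal 𝒪) ∧
        (∀ t, ε8 t * ε8 t = 1) ∧ (∀ l, εn l * εn l = 1) ∧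
        rr + 1 = Fintype.card κ + 3 * Fintype.card T8 + Fintype.card Tn ∧ 0 < d 0 ∧
        (∀ k : Fin m, e k + 2 * d k.castSucc = d k.succ) ∧ EE ≠ 0 ∧
        (∀ c, x₂ (β c) = m59ci3_xval l8 ln ε8 εn c) ∧
        (∀ n : ℕ, Nonempty (m59ci3_LvSys 𝒪 rr d κ a l8 t0 ln ka kv p εp lam ch ee EE
          (twds_a 𝒪 rr) (twds_b 𝒪 rr (p ^ n)) (twds_b_le_a rr (p ^ n)) T0 j β)) ∧
        ∀ (ℓ : ℕ) (hℓ : ℓ.Prime) (hℓN : ¬ ℓ ∣ N) (hℓS : ℓ ∉ (↑S' : Set ℕ)),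
          ∃ t : T0, j t = act (heckeAlgebra.T hℓ hℓN hℓS) ∧
            x₂ t = ((W.apOfModel ℓ : ℤ) : 𝒪)

/-- **[CI3-LEVEL] from [CI3-SYS]**: `m59ci3_level_of_sys` at every `n`. -/
theorem m59ci3S_level_of_sysStmt (Peu : m59e_PeuPred) (h : m59ci3S_Sys_stmt Peu) :
    m59ci3S_Level_stmt Peu := by
  intro p hpF hp W hΔ hW 𝒪 _ _ _ _ _ _ hp𝒪 hζ ρ hT hSO S N₁ hS hN₁sq hN₁S hOcc hram hbad hpN lam
    hmax
  obtain ⟨S', N, hNZ, hSS', hNsq, hNS', T8, Tn, κ, _, _, _, a, l8, t0, ln, ε8, εn, ka, kv, εp,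
    m, ch, ee, rr, d, e, EE, T0, _, _, _, x₂, j, β, act, hch, hne, hεp, hl8, hl8', han, hε8, hεn,
    hrr, hd0, he, hEE, hβ, hsys, hact⟩ :=
    h p hp W hΔ hW 𝒪 hp𝒪 hζ ρ hT hSO S N₁ hS hN₁sq hN₁S hOcc hram hbad hpN lam hmax
  obtain ⟨nK, γ, hγ⟩ := Module.Finite.exists_fin (R := 𝒪) (M := T0)
  haveI hcomplT0 : IsAdicComplete (Ideal.span {algebraMap 𝒪 T0 lam}) T0 := m59ci_complT0 lam hmax
  refine ⟨S', N, hNZ, hSS', hNsq, hNS', T8, Tn, κ, inferInstance, inferInstance, inferInstance,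
    a, l8, t0, ln, ε8, εn, ka, kv, εp, m, ch, ee, rr, d, e, EE, T0, inferInstance, inferInstance,
    inferInstance, x₂, j, Fin nK, inferInstance, γ, β, act, hch, hne, hεp, hl8, hl8', han, hε8,
    hεn, hrr, hd0, hγ, hβ, ?_, hact⟩
  intro hloc n
  haveI hcomplR : IsAdicComplete (maximalIdeal (m59lp_Rp 𝒪 κ a l8 t0 ln ka kv))
      (m59lp_Rp 𝒪 κ a l8 t0 ln ka kv) := m59lp_Rp_isAdicComplete 𝒪 κ a l8 t0 ln ka kv
  obtain ⟨sys⟩ := hsys n
  exact m59ci3_level_of_sys (twds_a_isPrime 𝒪 rr).ne_top (twds_finite_quot rr)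
    (Ideal.span {algebraMap 𝒪 T0 lam}) (twd_t0_finite_quot lam hmax) he hEE hεp ε8 hε8 εn hεn γ
    sys

end

end Fermat.Agent.M59
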