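import Fermat.Agent.M59.Top.Chain.ArithCore
import Fermat.Agent.M59.Top.Chain3.LvSys3
import Fermat.Agent.M59.Act.Sys3

/-!
M59 / [CHAIN-inst], case (III), **[CI3-ARITH]**: THE SEAM between the core of the wiring (ArithCore3,
helper10) and the arithmetic of the chain (ArithOf3, helper26).  Prefix `m59ci3a_`.  Statements only.

* `m59ci3a_ch3 ch` : the chain of case (III): the primes `≠ p` (enumerated by `ch`), then `p` LAST;
* `m59ci3a_Core_stmt` : **the core of the wiring of case (III)**, the twin of `m59ci_sys_core`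
  (M59/Top/Chain/ArithCore.lean): from the arithmetic data of the chain (frame `rW` of `ρ_W`, strictly
  ordinary at `p`; base level `N₀` prime to `p`, bad set `S₀`; chain primes `T8 ⊔ Tn` enumerated by
  `ch`; eigensystems `θ k` of the levels `N_k` and `θp` of the top level `N_m · p`; `Smin`; tame datum
  and adapted frames) to the base package `Bp` of the top level, the base ring `T₀` and the chain
  systems `m59ci3_LvSys` at every patching level `n`.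
-/

set_option autoImplicit false
set_option linter.style.haveILetI false
set_option linter.unusedSectionVars false
set_option linter.unusedVariables false

open Polynomial CuspForm IsLocalRing WeierstrassCurve ExtCitation
open Fermat.Agent.S53 Fermat.Agent.S56 Fermat.Agent.TW Fermat.Agent.JT3 Fermat.Agent.S55
open Fermat.Agent.SS Fermat.Agent.DS

namespace Fermat.Agent.M59

noncomputable section

local notation "GQ" => (AlgebraicClosure ℚ ≃ₐ[ℚ] AlgebraicClosure ℚ)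
local notation "Qbar" => AlgebraicClosure ℚ

/-- the chain of case (III): the primes `≠ p` first, the step at `p` LAST. -/
def m59ci3a_ch3 {X : Type} {m : ℕ} (ch : Fin m → X) : Fin (m + 1) → X ⊕ Unit :=
  @Fin.snoc m (fun _ => X ⊕ Unit) (fun k => Sum.inl (ch k)) (Sum.inr ())

theorem m59ci3a_ch3_castSucc {X : Type} {m : ℕ} (ch : Fin m → X) (k : Fin m) :
    m59ci3a_ch3 ch k.castSucc = Sum.inl (ch k) := by
  unfold m59ci3a_ch3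
  rw [Fin.snoc_castSucc]

theorem m59ci3a_ch3_last {X : Type} {m : ℕ} (ch : Fin m → X) :
    m59ci3a_ch3 ch (Fin.last m) = Sum.inr () := by
  unfold m59ci3a_ch3
  rw [Fin.snoc_last]

theorem m59ci3a_ch3_bijective {X : Type} {m : ℕ} (ch : Fin m → X) (hch : Function.Bijective ch) :
    Function.Bijective (m59ci3a_ch3 ch) := by
  constructor
  · intro k k' h
    induction k using Fin.lastCases with
    | last =>
      induction k' using Fin.lastCases with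
      | last => rfl
      | cast i' =>
        rw [m59ci3a_ch3_last, m59ci3a_ch3_castSucc] at h
        exact absurd h (by simp)
    | cast i =>
      induction k' using Fin.lastCases with
      | last =>
        rw [m59ci3a_ch3_last, m59ci3a_ch3_castSucc] at h
        exact absurd h (by simp)
      | cast i' =>
        rw [m59ci3a_ch3_castSucc, m59ci3a_ch3_castSucc] at h
        rw [hch.1 (Sum.inl.inj h)]
  · rintro (x | u)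
    · obtain ⟨k, hk⟩ := hch.2 x
      exact ⟨k.castSucc, by rw [m59ci3a_ch3_castSucc, hk]⟩
    · exact ⟨Fin.last m, by rw [m59ci3a_ch3_last]⟩

/-- **the core of the wiring of case (III)** (statement; the twin of `m59ci_sys_core`). -/
def m59ci3a_Core_stmt : Prop :=
  ∀ (p : ℕ) [Fact p.Prime], p ≠ 2 →
  ∀ (𝒪 : Type) [CommRing 𝒪] [IsDomain 𝒪] [IsDiscreteValuationRing 𝒪]
    [IsAdicComplete (maximalIdeal 𝒪) 𝒪] [Finite (ResidueField 𝒪)] [CharZero 𝒪],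
    (p : 𝒪) ∈ maximalIdeal 𝒪 → ∀ ζ : 𝒪, IsPrimitiveRoot ζ p →
  ∀ lam : 𝒪, maximalIdeal 𝒪 = Ideal.span {lam} →
  -- the frame of `ρ_W`
  ∀ (rW : FramedRep 𝒪), s56a_Hyp p rW.residual.toResidualGaloisRep →
    rW.toGaloisRepAdic.DetIsCyclotomic p →
    (∀ q : ℕ, q.Prime → q ≠ p → rW.toGaloisRepAdic.IsUnipotentOnInertiaAt q) →
    rW.toGaloisRepAdic.IsStrictOrdinaryAt p →
  -- the base level (prime to `p`) and the base bad set
  ∀ (N₀ : ℕ) [NeZero N₀], m59ep_Rigid p N₀ → ¬ p ∣ N₀ →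
  ∀ (S₀ : Finset ℕ), p ∈ S₀ → (∀ ℓ : ℕ, ℓ.Prime → ℓ ∣ N₀ → ℓ ∈ S₀) →
  -- the primes `≠ p` of the chain
  ∀ (T8 Tn : Finset Nat.Primes), Disjoint T8 Tn →
  ∀ (m : ℕ) (ch : Fin m → ↥T8 ⊕ ↥Tn), Function.Bijective ch →
    (∀ ℓ ∈ T8 ∪ Tn, ((ℓ : Nat.Primes) : ℕ) ∉ S₀ ∧ ((ℓ : Nat.Primes) : ℕ) ≠ p ∧
      ¬ rW.toGaloisRepAdic.IsUnramifiedAt ((ℓ : Nat.Primes) : ℕ)) →
    (∀ ℓ ∈ T8, ((ℓ : Nat.Primes) : ℕ) % p = 1) →
    Squarefree (m59ep_lvl N₀ (m59ci_lch ch) m * p) →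
  -- the eigensystems
  ∀ [∀ k : ℕ, NeZero (m59ep_lvl N₀ (m59ci_lch ch) k)]
    [NeZero (m59ep_lvl N₀ (m59ci_lch ch) m * p)]
    (θ : ∀ k : ℕ, heckeAlgebra (m59ep_lvl N₀ (m59ci_lch ch) k) 2
      (↑(m59ep_bad S₀ (m59ci_lch ch) k) : Set ℕ) →+* ResidueField 𝒪)
    (θp : heckeAlgebra (m59ep_lvl N₀ (m59ci_lch ch) m * p) 2
      (↑(m59ep_bad S₀ (m59ci_lch ch) m) : Set ℕ) →+* ResidueField 𝒪),
    (∀ k, twt_Compat (θ k) rW.residual.toResidualGaloisRep) →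
    twt_Compat θp rW.residual.toResidualGaloisRep →
  -- the primes where `ρ̄` is ramified
  ∀ (Smin : Finset ℕ), p ∉ Smin → (∀ q ∈ Smin, q.Prime ∧ q ∣ N₀) →
    (∀ q : ℕ, q.Prime → q ≠ p →
      (q ∈ Smin ↔ ¬ rW.residual.toResidualGaloisRep.IsUnramifiedAt q)) →
    (∀ q : ℕ, q.Prime → q ≠ p → q ∉ Smin →
      q ∉ (T8 ∪ Tn).image (fun ℓ : Nat.Primes => (ℓ : ℕ)) → rW.toGaloisRepAdic.IsUnramifiedAt q) →
    (∀ q : ℕ, q.Prime → q ∣ N₀ → q ≠ p → q ∉ Smin →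
      m59m_IsHarmless p rW.residual.toResidualGaloisRep q) →
  -- the tame datum and the adapted frames
  ∀ (td : m59c_TameData p (T8 ∪ Tn)), m59ct_InertiaGen td →
  ∀ (ε : Nat.Primes → ℤ) (g gi : Nat.Primes → Matrix (Fin 2) (Fin 2) 𝒪)
    (e : Nat.Primes → Fin 2 → 𝒪),
    (∀ ℓ ∈ T8 ∪ Tn, ε ℓ * ε ℓ = 1 ∧ gi ℓ * g ℓ = 1 ∧ g ℓ * gi ℓ = 1 ∧
      (gi ℓ * rW (td.gφ ℓ) * g ℓ) 0 0 = ((ε ℓ : ℤ) : 𝒪) * (((ℓ : Nat.Primes) : ℕ) : 𝒪) ∧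
      (gi ℓ * rW (td.gφ ℓ) * g ℓ) 1 0 = 0 ∧
      (gi ℓ * rW (td.gφ ℓ) * g ℓ) 1 1 = ((ε ℓ : ℤ) : 𝒪) ∧
      (gi ℓ * (rW (td.gσ ℓ) - 1) * g ℓ) 0 0 = 0 ∧
      (gi ℓ * (rW (td.gσ ℓ) - 1) * g ℓ) 1 0 = 0 ∧
      (gi ℓ * (rW (td.gσ ℓ) - 1) * g ℓ) 1 1 = 0) →
    (∀ ℓ ∈ T8, rW.residual (td.gφ ℓ) =
      Matrix.scalar (Fin 2) (residue 𝒪 (((ε ℓ : ℤ) : 𝒪)))) →
    (∀ ℓ ∈ Tn,
      (m59c_cyc (rW.residual (td.gφ ℓ)) (fun i => residue 𝒪 (e ℓ i))).det ≠ 0) →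
    -- THE OUTPUT
    ∃ (κ : Type) (_ : Fintype κ) (ka kv : κ) (εp : ℤ) (rr : ℕ) (d : Fin (m + 2) → ℕ) (EE : ℕ)
      (Bp : twe_Base 𝒪 (m59ep_lvl N₀ (m59ci_lch ch) m * p) (m59ep_bad S₀ (m59ci_lch ch) m) θp)
      (hdp : d (Fin.last (m + 1)) = Bp.d * 2 ^ rr)
      (T0 : Type) (_ : CommRing T0) (_ : Algebra 𝒪 T0) (_ : Module.Finite 𝒪 T0)
      (x₂ : T0 →ₐ[𝒪] 𝒪) (p1 : T0 →ₐ[𝒪] Bp.T) (β : ((↥T8 × Fin 6) ⊕ ↥Tn) ⊕ Unit → T0),
      ka ≠ kv ∧ εp * εp = 1 ∧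
      rr + 1 = Fintype.card κ + 3 * T8.card + Tn.card ∧ 0 < d 0 ∧ EE ≠ 0 ∧
      (∀ cc, x₂ (β cc) = m59ci3_xval (fun ℓ : ↥T8 => ((ℓ : Nat.Primes) : ℕ))
        (fun ℓ : ↥Tn => ((ℓ : Nat.Primes) : ℕ)) (fun ℓ : ↥T8 => ε ℓ) (fun ℓ : ↥Tn => ε ℓ) cc) ∧
      (∀ σ : GQ, ∃ t : T0, p1 t = Bp.H.ρ.trace σ ∧ x₂ t = Matrix.trace (rW σ)) ∧
      ∀ n : ℕ, Nonempty (m59ci3_LvSys 𝒪 rr d κ
        (fun ℓ : ↥T8 => ((ε ℓ : ℤ) : 𝒪)) (fun ℓ : ↥T8 => ((ℓ : Nat.Primes) : ℕ))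
        (fun ℓ : ↥Tn => ((ε ℓ : ℤ) : 𝒪) * ((((ℓ : Nat.Primes) : ℕ) : 𝒪) + 1))
        (fun ℓ : ↥Tn => ((ℓ : Nat.Primes) : ℕ)) ka kv p εp lam (m59ci3a_ch3 ch)
        (fun k : Fin (m + 1) => d k.succ) EE
        (twds_a 𝒪 rr) (twds_b 𝒪 rr (p ^ n)) (twds_b_le_a rr (p ^ n)) T0
        ((m59ci3_jcast hdp.symm).comp ((twc_j Bp rr).comp (p1 : T0 →+* Bp.T))) β)

end

end Fermat.Agent.M59
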