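import Fermat.Agent.M59.Top.Chain.ArithCore
import Fermat.Agent.M59.Top.Chain3.SysGlue3
import Fermat.Agent.M59.Act.ActStmt3D
import Fermat.Agent.M59.C.PairCot3
import Fermat.Agent.M59.AtP.ChainPClosed
import Fermat.Agent.M59.Rp.OrdMap
import Fermat.Agent.M59.Rp.Flat0
import Fermat.Agent.M59.Rp.ZUrRho
import Fermat.Agent.M59.Rp.VbarRes
import Fermat.Agent.M59.Rp.DataIII
import Fermat.Agent.M59.Top.Chain.PairTop3
import Fermat.Agent.M59.Top.Chain.AtP3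
import Fermat.Agent.M59.Top.Chain.TrP3
import Fermat.Agent.M59.Top.Chain3.ArithSeam3
import Fermat.Agent.M59.Act.GalDia

/-!
M59 / [CHAIN-inst], case (III), [CI3-ARITH], the core of the wiring (helper10; ruling #48, chief's
ruling #5778).  Prefix `m59ci3a_`.  Twin of helper25's M59/Top/Chain/ArithCore.lean.

* `m59ci3a_sys_core` (PROVED): from [CI-U] `m59ci_U_stmt`, [CI3-PAIRTOP] `m59ci_PairTop3_stmt`
  (helper25) and the closed cells [P-STEP] `m59p_chainP`, [CI3-ACT] `m59ac_act3D_stmt` (helper26),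
  [CI-COT3] `m59cp_cot3` (helper21), the data at `p` `m59ci_atP3_datum` (helper25/helper13),
  [CI3-FLAT0] `m59rpa_flat0_datum`, (Z-ex) `m59ci_isUrEig_zTr`, [ORD-T] `m59rpk_ord_chainP`
  (helper24), the glue `m59ci3_lvSys_of` (helper26): the base packages `B k`, `Bp`, the base ring
  `T₀`, the ranks `d : Fin (m + 2) → ℕ` and the chain systems `m59ci3_LvSys` at every patching
  level `n` (chain `m59ci3a_ch3 ch` of helper26's M59/Top/Chain3/ArithSeam3.lean: `p` LAST);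
* **`m59ci3a_core : m59ci3a_Core_stmt`** : helper26's seam (ArithSeam3.lean) CLOSED, from
  `m59ci3a_sys_core` at [CI-U] `m59ac_u_stmt` (helper26) and [CI3-PAIRTOP] `m59ci_pairTop3` (helper25).
-/

set_option autoImplicit false
set_option linter.style.haveILetI false
set_option linter.unusedSectionVars false
set_option linter.unusedVariables false
set_option maxHeartbeats 1600000

open Polynomial CuspForm IsLocalRing WeierstrassCurve ExtCitation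
open Fermat.Agent.S53 Fermat.Agent.S56 Fermat.Agent.TW Fermat.Agent.JT3 Fermat.Agent.S55
open Fermat.Agent.SS Fermat.Agent.DS

namespace Fermat.Agent.M59

noncomputable section

local notation "GQ" => (AlgebraicClosure ℚ ≃ₐ[ℚ] AlgebraicClosure ℚ)
local notation "Qbar" => AlgebraicClosure ℚ

attribute [local instance] S53.dualNumberAlgebra

/-! ### the core -/

section core

variable {p : ℕ} [hpF : Fact p.Prime]
  {𝒪 : Type} [CommRing 𝒪] [IsDomain 𝒪] [IsDiscreteValuationRing 𝒪]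
  [IsAdicComplete (maximalIdeal 𝒪) 𝒪] [Finite (ResidueField 𝒪)] [CharZero 𝒪]

/-- **the core of the wiring [CI3-ARITH]** (case (III)). -/
theorem m59ci3a_sys_core
    (hU : m59ci_U_stmt) (hP : m59ci_PairTop3_stmt)
    (hp2 : p ≠ 2) (hp𝒪 : (p : 𝒪) ∈ maximalIdeal 𝒪) (ζ : 𝒪) (hζ : IsPrimitiveRoot ζ p)
    (rW : FramedRep 𝒪)
    (hyp : s56a_Hyp p rW.residual.toResidualGaloisRep)
    (hdet : rW.toGaloisRepAdic.DetIsCyclotomic p)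
    (hunip : ∀ q : ℕ, q.Prime → q ≠ p → rW.toGaloisRepAdic.IsUnipotentOnInertiaAt q)
    (hs : rW.toGaloisRepAdic.IsStrictOrdinaryAt p)
    (N₀ : ℕ) [NeZero N₀] (hrig : m59ep_Rigid p N₀) (hpN₀ : ¬ p ∣ N₀)
    (S₀ : Finset ℕ) (hpS₀ : p ∈ S₀)
    (hN₀S₀ : ∀ ℓ : ℕ, ℓ.Prime → ℓ ∣ N₀ → ℓ ∈ S₀)
    (T8 Tn : Finset Nat.Primes) (hdisj : Disjoint T8 Tn)
    (m : ℕ) (ch : Fin m → ↥T8 ⊕ ↥Tn) (hch : Function.Bijective ch)
    (hTh : ∀ ℓ ∈ T8 ∪ Tn, ((ℓ : Nat.Primes) : ℕ) ∉ S₀ ∧ ((ℓ : Nat.Primes) : ℕ) ≠ p ∧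
      ¬ rW.toGaloisRepAdic.IsUnramifiedAt ((ℓ : Nat.Primes) : ℕ))
    (hT8 : ∀ ℓ ∈ T8, ((ℓ : Nat.Primes) : ℕ) % p = 1)
    (hsq : Squarefree (m59ep_lvl N₀ (m59ci_lch ch) m * p))
    [hNZ : ∀ k : ℕ, NeZero (m59ep_lvl N₀ (m59ci_lch ch) k)]
    [hNZp : NeZero (m59ep_lvl N₀ (m59ci_lch ch) m * p)]
    (θ : ∀ k : ℕ, heckeAlgebra (m59ep_lvl N₀ (m59ci_lch ch) k) 2
      (↑(m59ep_bad S₀ (m59ci_lch ch) k) : Set ℕ) →+* ResidueField 𝒪)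
    (θp : heckeAlgebra (m59ep_lvl N₀ (m59ci_lch ch) m * p) 2
      (↑(m59ep_bad S₀ (m59ci_lch ch) m) : Set ℕ) →+* ResidueField 𝒪)
    (hcompat : ∀ k, twt_Compat (θ k) rW.residual.toResidualGaloisRep)
    (hcompatp : twt_Compat θp rW.residual.toResidualGaloisRep)
    (Smin : Finset ℕ) (hpSmin : p ∉ Smin) (hSminN : ∀ q ∈ Smin, q.Prime ∧ q ∣ N₀)
    (hmin : ∀ q : ℕ, q.Prime → q ≠ p →
      (q ∈ Smin ↔ ¬ rW.residual.toResidualGaloisRep.IsUnramifiedAt q))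
    (hunr : ∀ q : ℕ, q.Prime → q ≠ p → q ∉ Smin →
      q ∉ (T8 ∪ Tn).image (fun ℓ : Nat.Primes => (ℓ : ℕ)) → rW.toGaloisRepAdic.IsUnramifiedAt q)
    (hharm : ∀ q : ℕ, q.Prime → q ∣ N₀ → q ≠ p → q ∉ Smin →
      m59m_IsHarmless p rW.residual.toResidualGaloisRep q)
    (td : m59c_TameData p (T8 ∪ Tn)) (hgen : m59ct_InertiaGen td)
    (ε : Nat.Primes → ℤ) (g gi : Nat.Primes → Matrix (Fin 2) (Fin 2) 𝒪)
    (e : Nat.Primes → Fin 2 → 𝒪)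
    (hframe : ∀ ℓ ∈ T8 ∪ Tn, ε ℓ * ε ℓ = 1 ∧ gi ℓ * g ℓ = 1 ∧ g ℓ * gi ℓ = 1 ∧
      (gi ℓ * rW (td.gφ ℓ) * g ℓ) 0 0 = ((ε ℓ : ℤ) : 𝒪) * (((ℓ : Nat.Primes) : ℕ) : 𝒪) ∧
      (gi ℓ * rW (td.gφ ℓ) * g ℓ) 1 0 = 0 ∧
      (gi ℓ * rW (td.gφ ℓ) * g ℓ) 1 1 = ((ε ℓ : ℤ) : 𝒪) ∧
      (gi ℓ * (rW (td.gσ ℓ) - 1) * g ℓ) 0 0 = 0 ∧
      (gi ℓ * (rW (td.gσ ℓ) - 1) * g ℓ) 1 0 = 0 ∧
      (gi ℓ * (rW (td.gσ ℓ) - 1) * g ℓ) 1 1 = 0)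
    (hscal : ∀ ℓ ∈ T8, rW.residual (td.gφ ℓ) =
      Matrix.scalar (Fin 2) (residue 𝒪 (((ε ℓ : ℤ) : 𝒪))))
    (hcyc : ∀ ℓ ∈ Tn,
      (m59c_cyc (rW.residual (td.gφ ℓ)) (fun i => residue 𝒪 (e ℓ i))).det ≠ 0)
    (lam : 𝒪) (hlam : maximalIdeal 𝒪 = Ideal.span {lam}) :
    ∃ (rr c3 : ℕ), rr + 1 = (c3 + 2) + 3 * T8.card + Tn.card ∧
    ∃ εp : ℤ, εp * εp = 1 ∧
    ∃ (B : ∀ k : ℕ, twe_Base 𝒪 (m59ep_lvl N₀ (m59ci_lch ch) k)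
        (m59ep_bad S₀ (m59ci_lch ch) k) (θ k))
      (Bp : twe_Base 𝒪 (m59ep_lvl N₀ (m59ci_lch ch) m * p) (m59ep_bad S₀ (m59ci_lch ch) m) θp),
    ∃ (T0 : Type) (_ : CommRing T0) (_ : Algebra 𝒪 T0) (_ : Module.Finite 𝒪 T0)
      (x₂ : T0 →ₐ[𝒪] 𝒪) (p1 : T0 →ₐ[𝒪] Bp.T) (β : ((↥T8 × Fin 6) ⊕ ↥Tn) ⊕ Unit → T0),
      (∀ cc, x₂ (β cc) = m59ci3_xval (fun ℓ : ↥T8 => ((ℓ : Nat.Primes) : ℕ))
        (fun ℓ : ↥Tn => ((ℓ : Nat.Primes) : ℕ)) (fun ℓ : ↥T8 => ε ℓ) (fun ℓ : ↥Tn => ε ℓ) cc) ∧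
      (∀ σ : GQ, ∃ t : T0, p1 t = Bp.H.ρ.trace σ ∧ x₂ t = Matrix.trace (rW σ)) ∧
    ∃ (d : Fin (m + 2) → ℕ) (_ : ∀ k : Fin (m + 1), d k.castSucc = (B (k : ℕ)).d * 2 ^ rr)
      (hdp : d (Fin.last (m + 1)) = Bp.d * 2 ^ rr),
      (∀ k : Fin (m + 1), 2 * d k.castSucc ≤ d k.succ) ∧
      ∀ n : ℕ, Nonempty (m59ci3_LvSys 𝒪 rr d (Fin (c3 + 2))
        (fun ℓ : ↥T8 => ((ε ℓ : ℤ) : 𝒪)) (fun ℓ : ↥T8 => ((ℓ : Nat.Primes) : ℕ))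
        (fun ℓ : ↥Tn => ((ε ℓ : ℤ) : 𝒪) * ((((ℓ : Nat.Primes) : ℕ) : 𝒪) + 1))
        (fun ℓ : ↥Tn => ((ℓ : Nat.Primes) : ℕ)) (0 : Fin (c3 + 2)) (1 : Fin (c3 + 2)) p εp lam
        (m59ci3a_ch3 ch) (fun k : Fin (m + 1) => d k.succ) ((B m).d * 2 ^ rr)
        (twds_a 𝒪 rr) (twds_b 𝒪 rr (p ^ n)) (twds_b_le_a rr (p ^ n)) T0
        ((m59ci3_jcast hdp.symm).comp ((twc_j Bp rr).comp (p1 : T0 →+* Bp.T))) β) := by
  classical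
  have hpp : p.Prime := hpF.out
  haveI : CharP (ResidueField 𝒪) p := s56a_charP p hp𝒪
  set l : Fin m → ℕ := m59ci_lch ch with hldef
  set rbρ : ResidualGaloisRep (ResidueField 𝒪) := rW.residual.toResidualGaloisRep with hrbρ
  have hA : (padicPlace p).LiesOverPrime p := pl_padicPlace_liesOver p
  -- the chain primes
  have hlmem : ∀ k, ∃ ℓ ∈ T8 ∪ Tn, l k = ((ℓ : Nat.Primes) : ℕ) := m59ci_lch_mem ch
  have hl : ∀ i, (l i).Prime ∧ l i ∉ S₀ ∧ l i ≠ p := by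
    intro i
    obtain ⟨ℓ, hℓ, hli⟩ := hlmem i
    rw [hli]
    exact ⟨ℓ.2, (hTh ℓ hℓ).1, (hTh ℓ hℓ).2.1⟩
  have hlinj : Function.Injective l := m59ci_lch_injective hdisj ch hch
  have hlp : ∀ i, (l i).Prime := fun i => (hl i).1
  -- the top level `N_m · p`
  have hpS' : p ∈ m59ep_bad S₀ l m := m59ci_subset_bad S₀ l m hpS₀
  have hNSm : ∀ q : ℕ, q.Prime → q ∣ m59ep_lvl N₀ l m → q ∈ m59ep_bad S₀ l m :=
    m59ci_lvl_primes_bad hlp hN₀S₀ m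
  have hNS' : ∀ q : ℕ, q.Prime → q ∣ m59ep_lvl N₀ l m * p → q ∈ m59ep_bad S₀ l m := by
    intro q hq hd
    rcases (Nat.Prime.dvd_mul hq).1 hd with h | h
    · exact hNSm q hq h
    · rw [(Nat.prime_dvd_prime_iff_eq hq hpp).1 h]
      exact hpS'
  have hpN' : p ∣ m59ep_lvl N₀ l m * p := Dvd.intro_left _ rfl
  have hplvl : ∀ k, ¬ p ∣ m59ep_lvl N₀ l k := by
    intro k hd
    rcases m59ci_prime_dvd_lvl hlp hpp hd with h1 | ⟨i, -, hi⟩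
    · exact hpN₀ h1
    · exact (hl i).2.2 hi.symm
  have hSminS₀ : Smin ⊆ S₀ := fun q hq => hN₀S₀ q (hSminN q hq).1 (hSminN q hq).2
  have hSminS' : Smin ⊆ m59ep_bad S₀ l m := fun q hq => m59ci_subset_bad S₀ l m (hSminS₀ hq)
  have hThbad : ∀ ℓ ∈ T8 ∪ Tn, ((ℓ : Nat.Primes) : ℕ) ∈ m59ep_bad S₀ l m := by
    intro ℓ hℓ
    obtain ⟨k, hk⟩ := m59ci_lch_surj ch hch ℓ hℓ
    exact m59ci_mem_bad.2 (Or.inr ⟨k, k.2, hk.symm⟩)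
  have hThN : ∀ ℓ ∈ T8 ∪ Tn, ((ℓ : Nat.Primes) : ℕ) ∣ m59ep_lvl N₀ l m * p := by
    intro ℓ hℓ
    obtain ⟨k, hk⟩ := m59ci_lch_surj ch hch ℓ hℓ
    rw [← hk]
    exact dvd_trans (m59ci_dvd_lvl_of_lt N₀ l k k.2) (Dvd.intro _ rfl)
  have hThSmin : ∀ ℓ ∈ T8 ∪ Tn, ((ℓ : Nat.Primes) : ℕ) ∉ Smin :=
    fun ℓ hℓ h => (hTh ℓ hℓ).1 (hSminS₀ h)
  have hordW : rW.toGaloisRepAdic.IsOrdinaryAt p := hs.isOrdinaryAt
  have hordres : (m59rp_res rW.residual).IsOrdinaryAt p := m59rp_res_ord rW hordW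
  -- block [E'] with the `p`-step
  obtain ⟨B, Bp, hB⟩ := m59p_chainP p hp2 𝒪 hp𝒪 N₀ hrig hpN₀ S₀ hpS₀ hN₀S₀ m l hlinj hl θ θp rbρ
    hcompat hcompatp hyp.habs
  -- the data at `p`, from the base datum of level `N₀` (prime to `p`)
  obtain ⟨E, g0, εp, hεp, hzW, haW, hzb, had, hvb, hsplit⟩ :=
    m59ci_atP3_datum hp2 hp𝒪 rW hyp.habs hdet hs (hplvl 0) (m59ci_subset_bad S₀ l 0 hpS₀)
      (m59ci_lvl_primes_bad hlp hN₀S₀ 0) (B 0).H (hcompat 0)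
  have hz0 : (((εp : ℤ) : 𝒪)) ^ 2 = 1 := by
    rw [pow_two, ← Int.cast_mul, hεp, Int.cast_one]
  -- the Taylor–Wiles primes
  obtain ⟨rr, c3, hrr, hqv⟩ := m59cp_cot3 𝒪 p hp2 hp𝒪 rW.residual hyp (fun _ => True)
    (m59ep_bad S₀ l m) Smin hpS' hpSmin hSminS' hmin T8 Tn hdisj
    (fun ℓ hℓ => ⟨hThbad ℓ hℓ, hThSmin ℓ hℓ, (hTh ℓ hℓ).2.1⟩) td
    (fun ℓ => ((ε ℓ : ℤ) : 𝒪)) hscal e hcyc E g0 ((εp : ℤ) : 𝒪) had hvb hz0 hsplit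
  have hrr1 : 1 ≤ rr := by omega
  -- the pair ring of the top level
  have hκ : Fintype.card (Fin (c3 + 2)) = c3 + 2 := Fintype.card_fin _
  have hkav : (0 : Fin (c3 + 2)) ≠ 1 := by
    intro h
    have := congrArg Fin.val h
    simp at this
  obtain ⟨T0, iCR, iAlg, iFin, x₂, p1, β, hβ, htr, hPS⟩ := hP p hp2 𝒪 hp𝒪
    (m59ep_lvl N₀ l m * p) hsq hpN' (m59ep_bad S₀ l m) hpS' hNS' rW θp hcompatp hyp hdet hunip
    hordW Smin hpSmin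
    (fun q hq => ⟨(hSminN q hq).1,
      dvd_trans (hSminN q hq).2 (dvd_trans (m59ci_dvd_lvl N₀ l m) (Dvd.intro _ rfl))⟩) hmin
    T8 Tn hdisj
    (fun ℓ hℓ => ⟨hThN ℓ hℓ, hThSmin ℓ hℓ, (hTh ℓ hℓ).2.1, (hTh ℓ hℓ).2.2⟩) hT8 hunr
    (fun q hq hqN hqp hqSmin hqTh => by
      rcases (Nat.Prime.dvd_mul hq).1 hqN with hqN | hqN
      · rcases m59ci_prime_dvd_lvl hlp hq hqN with h | ⟨i, -, hi⟩
        · exact hharm q hq h hqp hqSmin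
        · exfalso
          obtain ⟨ℓ, hℓ, hli⟩ := hlmem i
          exact hqTh (Finset.mem_image.2 ⟨ℓ, hℓ, by rw [hi, hli]⟩)
      · exact absurd ((Nat.prime_dvd_prime_iff_eq hq hpp).1 hqN) hqp)
    E g0 εp hεp haW hzb hvb td hgen ε g gi e hframe hscal hcyc (m + 1) (m59ci3a_ch3 ch)
    (fun b => by
      obtain ⟨k, hk⟩ := hch.2 b
      exact ⟨k.castSucc, by rw [m59ci3a_ch3_castSucc, hk]⟩)
    Bp rr (Fin (c3 + 2)) 0 1 hkav c3 hκ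
  refine ⟨rr, c3, hrr, εp, hεp, B, Bp, T0, iCR, iAlg, iFin, x₂, p1, β, hβ, htr, ?_⟩
  -- the ranks
  set d : Fin (m + 2) → ℕ :=
    @Fin.snoc (m + 1) (fun _ => ℕ) (fun k : Fin (m + 1) => (B (k : ℕ)).d * 2 ^ rr)
      (Bp.d * 2 ^ rr) with hddef
  have hd : ∀ k : Fin (m + 1), d k.castSucc = (B (k : ℕ)).d * 2 ^ rr := fun k => by
    rw [hddef, Fin.snoc_castSucc]
  have hdp : d (Fin.last (m + 1)) = Bp.d * 2 ^ rr := by
    rw [hddef, Fin.snoc_last]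
  refine ⟨d, hd, hdp, ?_⟩
  -- the chain of primes of case (III)
  set l' : Fin (m + 1) → ℕ := fun k => m59ci3_lc (fun ℓ : ↥T8 => ((ℓ : Nat.Primes) : ℕ))
    (fun ℓ : ↥Tn => ((ℓ : Nat.Primes) : ℕ)) p (m59ci3a_ch3 ch k) with hl'def
  have hl'0 : ∀ k : Fin m, l' k.castSucc = l k := by
    intro k
    show m59ci3_lc _ _ p (m59ci3a_ch3 ch k.castSucc) = l k
    rw [m59ci3a_ch3_castSucc]
    rfl
  have hl'p : l' (Fin.last m) = p := by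
    show m59ci3_lc _ _ p (m59ci3a_ch3 ch (Fin.last m)) = p
    rw [m59ci3a_ch3_last]
    rfl
  have hl'ne : ∀ (k : Fin (m + 1)) (b : ↥T8 ⊕ ↥Tn), m59ci3a_ch3 ch k = Sum.inl b → l' k ≠ p := by
    intro k b hk
    induction k using Fin.lastCases with
    | last =>
      rw [m59ci3a_ch3_last] at hk
      exact absurd hk (by simp)
    | cast k =>
      rw [hl'0 k]
      exact (hl k).2.2
  -- the systems at every patching level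
  have hsys : ∀ n : ℕ, Nonempty (m59ci3_LvSys 𝒪 rr d (Fin (c3 + 2))
      (fun ℓ : ↥T8 => ((ε ℓ : ℤ) : 𝒪)) (fun ℓ : ↥T8 => ((ℓ : Nat.Primes) : ℕ))
      (fun ℓ : ↥Tn => ((ε ℓ : ℤ) : 𝒪) * ((((ℓ : Nat.Primes) : ℕ) : 𝒪) + 1))
      (fun ℓ : ↥Tn => ((ℓ : Nat.Primes) : ℕ)) (0 : Fin (c3 + 2)) (1 : Fin (c3 + 2)) p εp lam
      (m59ci3a_ch3 ch) (fun k : Fin (m + 1) => d k.succ) ((B m).d * 2 ^ rr)
      (twds_a 𝒪 rr) (twds_b 𝒪 rr (p ^ n)) (twds_b_le_a rr (p ^ n)) T0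
      ((m59ci3_jcast hdp.symm).comp ((twc_j Bp rr).comp (p1 : T0 →+* Bp.T))) β) := by
    intro n
    obtain ⟨qv, hinj, hqv1, hqv2, hcot⟩ := hqv n
    set Q : Finset ℕ := Finset.univ.image qv with hQdef
    have hqvQ : ∀ i, qv i ∈ Q := fun i => Finset.mem_image.2 ⟨i, Finset.mem_univ _, rfl⟩
    have hQonto : ∀ t ∈ Q, ∃ i, qv i = t := fun t ht => by
      obtain ⟨i, -, hi⟩ := Finset.mem_image.1 ht
      exact ⟨i, hi⟩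
    have hQne : Q.Nonempty := ⟨qv ⟨0, hrr1⟩, hqvQ _⟩
    have hQp : ∀ t ∈ Q, t.Prime := fun t ht => by
      obtain ⟨i, rfl⟩ := hQonto t ht
      exact (hqv1 i).1
    have hqvbad : ∀ i k, qv i ∉ m59ep_bad S₀ l k := by
      intro i k h
      apply (hqv1 i).2.1
      rcases m59ci_mem_bad.1 h with h | ⟨j, -, hj⟩
      · exact m59ci_subset_bad S₀ l m h
      · exact m59ci_mem_bad.2 (Or.inr ⟨j, j.2, hj⟩)
    have hQS₀ : ∀ t ∈ Q, t ∉ S₀ ∧ ∀ i, t ≠ l i := by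
      intro t ht
      obtain ⟨i, rfl⟩ := hQonto t ht
      refine ⟨fun h => hqvbad i 0 (m59ci_subset_bad S₀ l 0 h), fun j hj => ?_⟩
      exact hqvbad i m (m59ci_mem_bad.2 (Or.inr ⟨j, j.2, hj⟩))
    have hTWk : ∀ k, twe_IsTWSet (θ k) p Q := fun k =>
      (twt_ts_isTWSet (θ k) rbρ (hcompat k) qv
        (fun i => ⟨(hqv1 i).1, hqvbad i k, (hqv1 i).2.2⟩) hqv2).1
    have hTWp : twe_IsTWSet θp p Q :=
      (twt_ts_isTWSet θp rbρ hcompatp qv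
        (fun i => ⟨(hqv1 i).1, hqvbad i m, (hqv1 i).2.2⟩) hqv2).1
    haveI : ∀ k : ℕ, NeZero (twe_Nbal (m59ep_lvl N₀ l k) Q ∅) := fun k =>
      ⟨twc_la_nbal_ne (NeZero.ne _) (fun t ht => (hQp t ht).ne_zero) (by simp)⟩
    haveI : NeZero (twe_Nbal (m59ep_lvl N₀ l m * p) Q ∅) :=
      ⟨twc_la_nbal_ne (NeZero.ne _) (fun t ht => (hQp t ht).ne_zero) (by simp)⟩
    obtain ⟨L, Lp, hLG, hLGp, hSt, hStP⟩ := hB Q hQS₀ hTWk hTWp hQne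
    -- the Galois diamonds at the top level
    have hQS' : ∀ t ∈ Q, t ∉ m59ep_bad S₀ l m := by
      intro t ht
      obtain ⟨i, rfl⟩ := hQonto t ht
      exact hqvbad i m
    have hunrQ : ∀ t ∈ Q, rbρ.IsUnramifiedAt t := by
      intro t ht
      have htp : t ≠ p := fun h => hQS' t ht (h ▸ hpS')
      by_contra hcon
      exact hQS' t ht (hSminS' ((hmin t (hQp t ht) htp).2 hcon))
    have hsplitQ : ∀ t ∈ Q, ∀ P : ValuationSubring Qbar, P.LiesOverPrime t → ∀ φ : GQ,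
        P.IsFrobeniusAt φ t → ∃ α β : ResidueField 𝒪, α ≠ β ∧
          LinearMap.charpoly (rbρ.ρ φ) = (X - C α) * (X - C β) := by
      intro t ht
      obtain ⟨i, rfl⟩ := hQonto t ht
      exact hqv2 i
    obtain ⟨u, hdia, hu1, hgal⟩ := hU p hp2 𝒪 hp𝒪 ζ hζ (m59ep_lvl N₀ l m * p)
      (m59ep_bad S₀ l m) hpS' hNS' θp rbρ hcompatp Bp Q hunrQ hQS' hTWp hsplitQ Lp hLGp
    -- the unramified eigenvalue at `p`
    have hQ1 : ∀ t ∈ Q, t.Prime ∧ t % p = 1 := fun t ht =>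
      ⟨hQp t ht, (hTWp t ht).2.1⟩
    have hNSp' : ∀ q : ℕ, q.Prime → q ∣ twe_Nbal (m59ep_lvl N₀ l m * p) Q ∅ →
        q ∈ m59ep_bad S₀ l m ∪ Q :=
      twc_ft_hNS (Th := ∅) hNS' hQp (fun ℓ hℓ => absurd hℓ (Finset.notMem_empty ℓ))
    have hpSQ : p ∈ m59ep_bad S₀ l m ∪ Q := Finset.mem_union_left _ hpS'
    obtain ⟨hordLp, hordL⟩ := m59rpk_ord_chainP hpp hp2 hp𝒪 hpN₀ hpS₀ hN₀S₀
      (fun i => ⟨(hl i).1, (hl i).2.2⟩) hQ1 L Lp hSt hStP rbρ hcompatp hordres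
    have hdetLp : Lp.H'.ρ.DetIsCyclotomic p := twt_dl_det hpp hp𝒪 hNSp' Lp.H'
    have hz : m59p_IsUrEig Lp.H'.ρ (padicPlace p) E.fr (m59ci_zTr Lp.H'.ρ E E.fr) :=
      m59ci_isUrEig_zTr hp2 hA E Lp.H'.ρ hdetLp hordLp (padicPlace p) hA E.fr E.fr_frob
    -- the flat clause at the level `0`
    have hNS0' : ∀ q : ℕ, q.Prime → q ∣ twe_Nbal (m59ep_lvl N₀ l 0) Q ∅ →
        q ∈ m59ep_bad S₀ l 0 ∪ Q :=
      twc_ft_hNS (Th := ∅) (m59ci_lvl_primes_bad hlp hN₀S₀ 0) hQp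
        (fun ℓ hℓ => absurd hℓ (Finset.notMem_empty ℓ))
    have hpQ : p ∉ Q := fun h => hQS' p h hpS'
    have hpNbal0 : ¬ p ∣ twe_Nbal (m59ep_lvl N₀ l 0) Q ∅ := by
      intro h
      rcases (twc_ft_prime_dvd_Nbal hQp
        (fun ℓ hℓ => absurd hℓ (Finset.notMem_empty ℓ)) hpp).1 h with h | h | h
      · exact hplvl 0 h
      · exact hpQ h
      · exact absurd h (Finset.notMem_empty p)
    have hflat0 : (L 0).H'.ρ.trace (g0 * E.tv) - (L 0).H'.ρ.trace g0 ∈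
        Ideal.span {algebraMap 𝒪 (L 0).T' lam} ⊔ maximalIdeal (L 0).T' ^ 2 :=
      m59rpa_flat0_datum hp2 hp𝒪 hpNbal0
        (Finset.mem_union_left _ (m59ci_subset_bad S₀ l 0 hpS₀)) hNS0' (L 0).H' rW.residual
        (twc_fr_compat_level (hcompat 0) (L 0)) hordres (padicPlace p) hA E g0 lam hlam
    -- the module side
    have hord : ∀ i, p ^ n ∣ twe_ord p (qv i) := fun i =>
      twt_ts_pow_dvd_ord (hqv1 i).1.one_lt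
        ((pow_dvd_pow p (Nat.le_succ n)).trans (hqv1 i).2.2)
    obtain ⟨AS⟩ := m59ac_act3D_stmt p hp2 𝒪 hp𝒪 N₀ S₀ hpS₀ hN₀S₀ m l hlinj hl θ θp B Bp Q hQp
      hQS₀ L Lp hSt hStP u hdia (padicPlace p) hA E.fr E.fr_frob (m59ci_zTr Lp.H'.ρ E E.fr) hz
      lam g0 E.tv hflat0 rr qv hqvQ hinj hQonto n hord l' hl'0 hl'p d hd hdp
      (fun k : Fin (m + 1) => d k.succ) (fun k => rfl) ((B m).d * 2 ^ rr) rfl
      (fun σ => Lp.H'.ρ.trace σ) (fun σ => rfl)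
      (Lp.H'.ρ.trace (g0 * E.tv) - Lp.H'.ρ.trace g0) rfl
      (((m59ci3_jcast hdp.symm).comp (twc_j Bp rr)).comp (Lp.π0 : Lp.T' →+* Bp.T))
      (fun t => rfl) (fun i => u (qv i) (hqvQ i)) (fun i => rfl)
    -- the pair side
    have hqv1' : ∀ i, (qv i).Prime ∧ qv i ∉ m59ep_bad S₀ l m ∧ qv i % p = 1 := fun i =>
      ⟨(hqv1 i).1, (hqv1 i).2.1, (hTWp (qv i) (hqvQ i)).2.1⟩
    obtain ⟨PS⟩ := hPS qv hinj hqv1' hqv2 hcot Lp u hu1 hgal (d (Fin.last (m + 1)))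
      (twds_a 𝒪 rr) ((m59ci3_jcast hdp.symm).comp (twc_j Bp rr))
    exact ⟨m59ci3_lvSys_of (fun k => rfl) hl'ne AS PS⟩
  refine ⟨fun k => ?_, hsys⟩
  obtain ⟨sys⟩ := hsys 0
  obtain ⟨L1, L2, h11, h12, h21, h22⟩ := sys.split k
  haveI : Nontrivial (MvPowerSeries (Fin rr) 𝒪 ⧸ twds_b 𝒪 rr (p ^ 0)) :=
    Ideal.Quotient.nontrivial_iff.2 (fun h => (twds_a_isPrime 𝒪 rr).ne_top
      (top_le_iff.1 (h ▸ twds_b_le_a rr (p ^ 0))))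
  exact m59ci_two_mul_le (sys.A k) (sys.B k) L1 L2 h11 h12 h21 h22

end core

/-- **the seam [CI3-ARITH] core** (helper26's `m59ci3a_Core_stmt`), CLOSED. -/
theorem m59ci3a_core : m59ci3a_Core_stmt := by
  intro p hpF hp2 𝒪 _ _ _ _ _ _ hp𝒪 ζ hζ lam hlam rW hyp hdet hunip hs N₀ _ hrig hpN₀ S₀ hpS₀ hN₀S₀
    T8 Tn hdisj m ch hch hTh hT8 hsq _ _ θ θp hcompat hcompatp Smin hpSmin hSminN hmin hunr hharm
    td hgen ε g gi e hframe hscal hcyc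
  obtain ⟨rr, c3, hrr, εp, hεp, B, Bp, T0, iCR, iAlg, iFin, x₂, p1, β, hβ, htr, d, hd, hdp, hineq,
    hsys⟩ := m59ci3a_sys_core m59ac_u_stmt m59ci_pairTop3 hp2 hp𝒪 ζ hζ rW hyp hdet hunip hs N₀ hrig
      hpN₀ S₀ hpS₀ hN₀S₀ T8 Tn hdisj m ch hch hTh hT8 hsq θ θp hcompat hcompatp Smin hpSmin hSminN
      hmin hunr hharm td hgen ε g gi e hframe hscal hcyc lam hlam
  refine ⟨Fin (c3 + 2), inferInstance, 0, 1, εp, rr, d, (B m).d * 2 ^ rr, Bp, hdp, T0, iCR, iAlg,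
    iFin, x₂, p1, β, ?_, hεp, ?_, ?_, ?_, hβ, htr, hsys⟩
  · intro h
    have := congrArg Fin.val h
    simp at this
  · rw [Fintype.card_fin]
    exact hrr
  · have h0 : d (0 : Fin (m + 1)).castSucc = (B 0).d * 2 ^ rr := hd 0
    rw [Fin.castSucc_zero] at h0
    rw [h0]
    exact Nat.mul_pos (B 0).d_pos (pow_pos (by norm_num) rr)
  · exact (Nat.mul_pos (B m).d_pos (pow_pos (by norm_num) rr)).ne'

end

end Fermat.Agent.M59
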