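import Fermat.Agent.M59.Top.Chain.Seams
import Fermat.Agent.M59.Loc.BaseP

/-!
M59 / [CHAIN-inst], case (III) (`W` multiplicative at `p`, `p ∤ N₁`), part 1: THE FRAME
(helper26, for helper25 #5529 (c); ruling #48).  Prefix `m59ci3_`.

Twin of M59/Top/Chain/Seams.lean §frame + `m59ci_data` + `m59ci_chainInput_of` on the ring
`R_∞ = m59lp_Rp 𝒪 κ a l8 t0 ln ka kv` (M59/Loc/RingP.lean: `m59b_R` with the two free coordinates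
`a = X ka`, `v = X kv` at `p` and the relation `a · v = 0`):

* `S_∞ = MvPowerSeries (Fin rr) 𝒪` with `rr + 1 = |κ| + 3 |T8| + |Tn|` (`dim Rp ≤ |κ| + 3|T8| + |Tn|`);
* `u = m59lp_uRp` (all the `N`-coordinates, and `v`), `𝔠 = m59lp_cc lam` (`⊥` at the `N`-coordinates,
  `(λ) + 𝔪²` at `v`: (R2'));
* the chain `ch : Fin m → (T8 ⊕ Tn) ⊕ Unit` runs through the primes of `B'` AND `p = Sum.inr ()`;
* the unramified eigenvalue at `p`: `z = m59ci3_zp εp = εp (1 + a)` (`εp = ± 1` the eigenvalue of `W`),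
  `z⁻¹ = m59ci3_zpi εp`; `r_p = m59ci3_rp = a (a + 2) = z² - 1`,
  `s_p = m59ci3_sp p εp = (p + 1) - εp (z + p z⁻¹)` (the shape of helper10's `m59p_abs_X_nil`);
* `ν = m59ci3_nu` : the coordinates `m59ci_nu` and `a`; `m59ci3_xval` : their values at the point of
  `W` (`a ↦ 0`).

PROVED: `m59ci3_hdim` (B1), `m59ci3_hbase` ((B2) + (SUPP-fl)), `m59ci3_hpts` (the walk + [NZ]),
`m59ci3_data` (the bundled `m59d_ChainData`), and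
`m59ci3_caseIII_of : m59ci3_Level_stmt Peu → m59ci_CaseIII_stmt Peu`.

LEAF: `m59ci3_Level_stmt Peu` **[CI3-LEVEL]**: the level data `m59d_ChainLevel` on that frame for
every `n`, and the link with the Hecke operators (twin of `m59ci_Level_stmt`).
-/

set_option autoImplicit false
set_option linter.style.haveILetI false
set_option linter.unusedSectionVars false
set_option linter.unusedVariables false

open Polynomial CuspForm IsLocalRing WeierstrassCurve Fermat.Agent.TW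

namespace Fermat.Agent.M59

noncomputable section

/-! ### the frame -/

section frame

variable {𝒪 : Type} [CommRing 𝒪] [IsDomain 𝒪] [IsNoetherianRing 𝒪] [IsLocalRing 𝒪] [CharZero 𝒪]
  {T8 Tn : Type} [Finite T8] [Finite Tn] (κ : Type) [Finite κ]
  (a : T8 → 𝒪) (l8 : T8 → ℕ) (t0 : Tn → 𝒪) (ln : Tn → ℕ) (ka kv : κ)

/-- `ν` in case (III): the coordinates of `m59ci_nu`, and `a = X ka`. -/
def m59ci3_nu : ((T8 × Fin 6) ⊕ Tn) ⊕ Unit → m59lp_Rp 𝒪 κ a l8 t0 ln ka kv :=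
  Sum.elim
    (Sum.elim
      (fun ti => Ideal.Quotient.mk _
        (![m59b_Phi8 𝒪 κ a ti.1 0 0, m59b_Phi8 𝒪 κ a ti.1 1 0, m59b_Phi8 𝒪 κ a ti.1 1 1,
          (MvPowerSeries.X (Sum.inl (ti.1, 0, 0, 0)) : m59b_P 𝒪 T8 Tn κ),
          (MvPowerSeries.X (Sum.inl (ti.1, 0, 1, 0)) : m59b_P 𝒪 T8 Tn κ),
          (MvPowerSeries.X (Sum.inl (ti.1, 0, 1, 1)) : m59b_P 𝒪 T8 Tn κ)] ti.2))
      (fun l => Ideal.Quotient.mk _ (m59b_tn 𝒪 T8 κ t0 l)))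
    (fun _ => Ideal.Quotient.mk _
      (MvPowerSeries.X (Sum.inr (Sum.inr ka)) : m59b_P 𝒪 T8 Tn κ))

/-- the prescribed values of `ν` at the point of `W`; `a ↦ 0`. -/
def m59ci3_xval (ε8 : T8 → ℤ) (εn : Tn → ℤ) : ((T8 × Fin 6) ⊕ Tn) ⊕ Unit → 𝒪 :=
  Sum.elim (m59ci_xval l8 ln ε8 εn) (fun _ => 0)

variable (𝒪 T8 Tn) in
/-- the unramified eigenvalue at `p`: `z = εp (1 + a)`. -/
def m59ci3_zp (εp : ℤ) : m59b_P 𝒪 T8 Tn κ :=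
  (εp : m59b_P 𝒪 T8 Tn κ) * (1 + MvPowerSeries.X (Sum.inr (Sum.inr ka)))

variable (𝒪 T8 Tn) in
/-- its inverse `εp (1 + a)⁻¹`. -/
def m59ci3_zpi (εp : ℤ) : m59b_P 𝒪 T8 Tn κ :=
  (εp : m59b_P 𝒪 T8 Tn κ) * Ring.inverse (1 + MvPowerSeries.X (Sum.inr (Sum.inr ka)))

variable (𝒪 T8 Tn) in
/-- `r_p = a (a + 2) = z² - 1`. -/
def m59ci3_rp : m59b_P 𝒪 T8 Tn κ :=
  MvPowerSeries.X (Sum.inr (Sum.inr ka)) * (MvPowerSeries.X (Sum.inr (Sum.inr ka)) + 2)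

variable (𝒪 T8 Tn) in
/-- `s_p = (p + 1) - εp (z + p z⁻¹)`. -/
def m59ci3_sp (p : ℕ) (εp : ℤ) : m59b_P 𝒪 T8 Tn κ :=
  ((p : m59b_P 𝒪 T8 Tn κ) + 1) -
    εp • (m59ci3_zp 𝒪 T8 Tn κ ka εp + (p : m59b_P 𝒪 T8 Tn κ) * m59ci3_zpi 𝒪 T8 Tn κ ka εp)

theorem m59ci3_isUnit_one_add :
    IsUnit (1 + MvPowerSeries.X (Sum.inr (Sum.inr ka)) : m59b_P 𝒪 T8 Tn κ) := by
  rw [MvPowerSeries.isUnit_iff_constantCoeff, map_add, map_one, MvPowerSeries.constantCoeff_X,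
    add_zero]
  exact isUnit_one

/-- `z z⁻¹ = 1`. -/
theorem m59ci3_zp_mul (εp : ℤ) (hεp : εp * εp = 1) :
    m59ci3_zp 𝒪 T8 Tn κ ka εp * m59ci3_zpi 𝒪 T8 Tn κ ka εp = 1 := by
  unfold m59ci3_zp m59ci3_zpi
  have h1 := Ring.mul_inverse_cancel _ (m59ci3_isUnit_one_add (𝒪 := 𝒪) (T8 := T8) (Tn := Tn) κ ka)
  have h2 : ((εp : m59b_P 𝒪 T8 Tn κ)) * (εp : m59b_P 𝒪 T8 Tn κ) = 1 := by
    rw [← Int.cast_mul, hεp, Int.cast_one]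
  calc _ = ((εp : m59b_P 𝒪 T8 Tn κ) * (εp : m59b_P 𝒪 T8 Tn κ)) *
        ((1 + MvPowerSeries.X (Sum.inr (Sum.inr ka))) *
          Ring.inverse (1 + MvPowerSeries.X (Sum.inr (Sum.inr ka)))) := by ring
    _ = 1 := by rw [h1, h2, one_mul]

/-- `z² - 1 = r_p`. -/
theorem m59ci3_zp_sq (εp : ℤ) (hεp : εp * εp = 1) :
    m59ci3_zp 𝒪 T8 Tn κ ka εp ^ 2 - 1 = m59ci3_rp 𝒪 T8 Tn κ ka := by
  unfold m59ci3_zp m59ci3_rp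
  have h2 : ((εp : m59b_P 𝒪 T8 Tn κ)) * (εp : m59b_P 𝒪 T8 Tn κ) = 1 := by
    rw [← Int.cast_mul, hεp, Int.cast_one]
  linear_combination (1 + MvPowerSeries.X (Sum.inr (Sum.inr ka))) ^ 2 * h2

/-- the hypothesis `hsp` of the walk: `s_p` vanishes at the points with `a = 0`. -/
theorem m59ci3_hsp (p : ℕ) (εp : ℤ) (hεp : εp * εp = 1) (y : m59b_P 𝒪 T8 Tn κ →+* 𝒪)
    (hyC : ∀ c, y (MvPowerSeries.C c) = c)
    (hya : y (MvPowerSeries.X (Sum.inr (Sum.inr ka))) = 0) :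
    y (m59ci3_sp 𝒪 T8 Tn κ ka p εp) = 0 := by
  have hu : y (1 + MvPowerSeries.X (Sum.inr (Sum.inr ka))) = 1 := by
    rw [map_add, map_one, hya, add_zero]
  have hinv : y (Ring.inverse (1 + MvPowerSeries.X (Sum.inr (Sum.inr ka)))) = 1 := by
    have h1 := Ring.mul_inverse_cancel _
      (m59ci3_isUnit_one_add (𝒪 := 𝒪) (T8 := T8) (Tn := Tn) κ ka)
    have h2 := congrArg y h1
    rwa [map_mul, hu, one_mul, map_one] at h2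
  have hεε : (εp : 𝒪) * (εp : 𝒪) = 1 := by
    rw [← Int.cast_mul, hεp, Int.cast_one]
  unfold m59ci3_sp m59ci3_zp m59ci3_zpi
  rw [map_sub, map_add, map_one, map_natCast, map_zsmul, map_add, map_mul, map_mul, map_mul,
    map_intCast, map_natCast, hu, hinv, zsmul_eq_mul]
  linear_combination (-(1 : 𝒪) - (p : 𝒪)) * hεε

variable {m : ℕ} (ch : Fin m → (T8 ⊕ Tn) ⊕ Unit)

/-- `r k = (r_{ch k}) ^ (ee k)`, with `r_p = a (a + 2)`. -/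
def m59ci3_r (ee : Fin m → ℕ) : Fin m → m59lp_Rp 𝒪 κ a l8 t0 ln ka kv :=
  fun k => Ideal.Quotient.mk _ (m59lp_r κ a l8 t0 ln (m59ci3_rp 𝒪 T8 Tn κ ka) (ch k)) ^ ee k

/-- `s k = s_{ch k}`, with `s_p = (p + 1) - εp (z + p z⁻¹)`. -/
def m59ci3_s (p : ℕ) (εp : ℤ) (ε8 : T8 → ℤ) (εn : Tn → ℤ) :
    Fin m → m59lp_Rp 𝒪 κ a l8 t0 ln ka kv :=
  fun k => Ideal.Quotient.mk _
    (m59lp_s κ a l8 t0 ln ε8 εn (m59ci3_sp 𝒪 T8 Tn κ ka p εp) (ch k))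

end frame

/-! ### the ring side -/

section ring

variable {𝒪 : Type} [CommRing 𝒪] [IsDomain 𝒪] [IsDiscreteValuationRing 𝒪]
  {T8 Tn κ : Type} [Fintype T8] [Fintype Tn] [Fintype κ]

/-- `|κ| + 3 |T8| + |Tn| ≤ dim S_∞` when `rr + 1 = |κ| + 3 |T8| + |Tn|`. -/
theorem m59ci3_dimS (rr : ℕ)
    (hrr : rr + 1 = Fintype.card κ + 3 * Fintype.card T8 + Fintype.card Tn) :
    ((Fintype.card κ + 3 * Fintype.card T8 + Fintype.card Tn : ℕ) : WithBot ℕ∞) ≤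
      ringKrullDim (MvPowerSeries (Fin rr) 𝒪) := by
  have e : Fintype.card κ + 3 * Fintype.card T8 + Fintype.card Tn = 1 + rr := by omega
  rw [e]
  exact m59ci_dimS rr

/-- **(B1)** `dim R_∞ ≤ dim S_∞`, case (III). -/
theorem m59ci3_hdim {lam : 𝒪} (hmax : maximalIdeal 𝒪 = Ideal.span {lam}) {p : ℕ} (hp : p.Prime)
    (hp2 : p ≠ 2) (hp𝒪 : (p : 𝒪) ∈ maximalIdeal 𝒪)
    (a : T8 → 𝒪) (l8 : T8 → ℕ) (t0 : Tn → 𝒪) (ln : Tn → ℕ) (hl8 : ∀ t, l8 t % p = 1)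
    (han : ∀ t, a t ^ 2 - (l8 t : 𝒪) ∈ maximalIdeal 𝒪) (ka kv : κ) (hne : ka ≠ kv) (rr : ℕ)
    (hrr : rr + 1 = Fintype.card κ + 3 * Fintype.card T8 + Fintype.card Tn) :
    ringKrullDim (m59lp_Rp 𝒪 κ a l8 t0 ln ka kv) ≤ ringKrullDim (MvPowerSeries (Fin rr) 𝒪) := by
  have hpl : (p : 𝒪) ∈ Ideal.span {lam} := by rw [← hmax]; exact hp𝒪
  exact (m59lp_dim_Rp_le hmax hp hp2 hpl (m59ci_isUnit_two hp hp2 hp𝒪) a l8 t0 ln hl8 han ka kv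
    hne).trans (m59ci3_dimS rr hrr)

variable [CharZero 𝒪]

/-- the hypothesis `hrp` of the walk: a prime containing `r_p` contains `a`. -/
theorem m59ci3_hrp (ka : κ) (h2 : IsUnit (2 : 𝒪)) (Q : Ideal (m59b_P 𝒪 T8 Tn κ)) (hQ : Q.IsPrime)
    (h : m59ci3_rp 𝒪 T8 Tn κ ka ∈ Q) :
    (MvPowerSeries.X (Sum.inr (Sum.inr ka)) : m59b_P 𝒪 T8 Tn κ) ∈ Q := by
  refine m59lp_rp_mem h2 ka 1 Q hQ ?_
  rw [pow_one]
  exact h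

/-- **the field `hpts`**, case (III): the walk `m59lp_hpts` (+ [NZ] by dimension) through the
primes of `B'` and `p`, with the values of the point read off from `ν`. -/
theorem m59ci3_hpts {lam : 𝒪} (hmax : maximalIdeal 𝒪 = Ideal.span {lam}) {p : ℕ} (hp : p.Prime)
    (hp2 : p ≠ 2) (hp𝒪 : (p : 𝒪) ∈ maximalIdeal 𝒪)
    (a : T8 → 𝒪) (l8 : T8 → ℕ) (t0 : Tn → 𝒪) (ln : Tn → ℕ) (hl8 : ∀ t, l8 t % p = 1)
    (hl8' : ∀ t, 2 ≤ l8 t)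
    (han : ∀ t, a t ^ 2 - (l8 t : 𝒪) ∈ maximalIdeal 𝒪) (ka kv : κ) (hne : ka ≠ kv) (rr : ℕ)
    (hrr : rr + 1 = Fintype.card κ + 3 * Fintype.card T8 + Fintype.card Tn)
    {m : ℕ} (ch : Fin m → (T8 ⊕ Tn) ⊕ Unit) (hch : Function.Bijective ch) (ee : Fin m → ℕ)
    (εp : ℤ) (hεp : εp * εp = 1)
    (ε8 : T8 → ℤ) (hε8 : ∀ t, ε8 t * ε8 t = 1) (εn : Tn → ℤ) (hεn : ∀ l, εn l * εn l = 1)
    (x : m59lp_Rp 𝒪 κ a l8 t0 ln ka kv →+* 𝒪)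
    (hxν : ∀ c, x (m59ci3_nu κ a l8 t0 ln ka kv c) = m59ci3_xval l8 ln ε8 εn c)
    (hxC : ∀ c : 𝒪, x (algebraMap 𝒪 (m59lp_Rp 𝒪 κ a l8 t0 ln ka kv) c) = c) :
    ∃ y : Fin (m + 1) → (m59lp_Rp 𝒪 κ a l8 t0 ln ka kv →+* 𝒪),
      y (Fin.last m) = x ∧ (∀ i, y 0 (m59lp_uRp a l8 t0 ln ka kv i) = 0) ∧
      (∀ k : Fin m, y k.castSucc (m59ci3_s κ a l8 t0 ln ka kv ch p εp ε8 εn k) = 0) ∧
      ∀ (k : Fin m) (P : Ideal (m59lp_Rp 𝒪 κ a l8 t0 ln ka kv)),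
        P ∈ minimalPrimes (m59lp_Rp 𝒪 κ a l8 t0 ln ka kv) →
        ringKrullDim (MvPowerSeries (Fin rr) 𝒪) ≤
          ringKrullDim (m59lp_Rp 𝒪 κ a l8 t0 ln ka kv ⧸ P) →
        m59ci3_r κ a l8 t0 ln ka kv ch ee k ∈ P →
        P ≤ RingHom.ker (y k.castSucc) → P ≤ RingHom.ker (y k.succ) := by
  have hpl : (p : 𝒪) ∈ Ideal.span {lam} := by rw [← hmax]; exact hp𝒪
  have h2 := m59ci_isUnit_two hp hp2 hp𝒪
  exact m59lp_hpts hmax hp hp2 hpl h2 a l8 t0 ln hl8 han ka kv hne ch hch.injective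
    (fun b => hch.surjective (Sum.inl b)) hl8' ε8 hε8 εn hεn _ (m59ci3_dimS rr hrr) ee
    (m59ci3_rp 𝒪 T8 Tn κ ka) (m59ci3_sp 𝒪 T8 Tn κ ka p εp)
    (fun Q hQ h => m59ci3_hrp ka h2 Q hQ h)
    (fun y hyC hya => m59ci3_hsp κ ka p εp hεp y hyC hya)
    x (fun c => hxC c)
    (fun t => hxν (Sum.inl (Sum.inl (t, 0)))) (fun t => hxν (Sum.inl (Sum.inl (t, 1))))
    (fun t => hxν (Sum.inl (Sum.inl (t, 2)))) (fun t => hxν (Sum.inl (Sum.inl (t, 3))))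
    (fun t => hxν (Sum.inl (Sum.inl (t, 4)))) (fun t => hxν (Sum.inl (Sum.inl (t, 5))))
    (fun l => hxν (Sum.inl (Sum.inr l)))
    (fun _ => hxν (Sum.inr ()))
    (fun h => absurd (hch.surjective (Sum.inr ())) (fun ⟨k, hk⟩ => h k hk))

/-- **the field `hbase`**, case (III): `m59lp_hbase` ((B2) for `Rp / (u, v)` + (SUPP-fl): a prime of
full coheight containing some `w ≡ v mod (λ) + 𝔪²` contains `v`). -/
theorem m59ci3_hbase [IsAdicComplete (maximalIdeal 𝒪) 𝒪]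
    {lam : 𝒪} (hmax : maximalIdeal 𝒪 = Ideal.span {lam}) {p : ℕ} (hp : p.Prime)
    (hp2 : p ≠ 2) (hp𝒪 : (p : 𝒪) ∈ maximalIdeal 𝒪)
    (a : T8 → 𝒪) (l8 : T8 → ℕ) (t0 : Tn → 𝒪) (ln : Tn → ℕ) (hl8 : ∀ t, l8 t % p = 1)
    (han : ∀ t, a t ^ 2 - (l8 t : 𝒪) ∈ maximalIdeal 𝒪) (ka kv : κ) (hne : ka ≠ kv)
    [IsLocalRing (m59lp_Rp 𝒪 κ a l8 t0 ln ka kv)] (rr : ℕ)
    (hrr : rr + 1 = Fintype.card κ + 3 * Fintype.card T8 + Fintype.card Tn) :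
    ∀ w : ((T8 × Fin 2 × Fin 2) ⊕ (Tn × Fin 2)) ⊕ Unit → m59lp_Rp 𝒪 κ a l8 t0 ln ka kv,
      (∀ i, w i - m59lp_uRp a l8 t0 ln ka kv i ∈ m59lp_cc lam a l8 t0 ln ka kv i) →
      ∀ P : Ideal (m59lp_Rp 𝒪 κ a l8 t0 ln ka kv), P.IsPrime → (∀ i, w i ∈ P) →
      ringKrullDim (MvPowerSeries (Fin rr) 𝒪) ≤
        ringKrullDim (m59lp_Rp 𝒪 κ a l8 t0 ln ka kv ⧸ P) →
      ∀ y0 : m59lp_Rp 𝒪 κ a l8 t0 ln ka kv →+* 𝒪,
        (∀ i, y0 (m59lp_uRp a l8 t0 ln ka kv i) = 0) → P ≤ RingHom.ker y0 := by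
  have hpl : (p : 𝒪) ∈ Ideal.span {lam} := by rw [← hmax]; exact hp𝒪
  haveI : IsDomain (MvPowerSeries (Fin rr) 𝒪) := NoZeroDivisors.to_isDomain _
  exact m59lp_hbase hmax hp hp2 hpl (m59ci_isUnit_two hp hp2 hp𝒪) a l8 t0 ln hl8
    (m59ci_isUnit_a hp𝒪 a l8 hl8 han) han ka kv hne (S := MvPowerSeries (Fin rr) 𝒪)
    (m59ci3_dimS rr hrr) (E := 𝒪)

end ring

/-! ### the leaf and the wiring -/

/-- **[CI3-LEVEL]** (case (III)): the level data on the frame of `Rp`. -/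
def m59ci3_Level_stmt (Peu : m59e_PeuPred) : Prop :=
  ∀ (p : ℕ) [Fact p.Prime], p = 3 ∨ p = 5 → ∀ W : WeierstrassCurve ℤ, W.Δ ≠ 0 →
    W.IsSemistableModel →
  ∀ (𝒪 : Type) [CommRing 𝒪] [IsDomain 𝒪] [IsDiscreteValuationRing 𝒪]
    [IsAdicComplete (maximalIdeal 𝒪) 𝒪] [Finite (ResidueField 𝒪)] [CharZero 𝒪],
    (p : 𝒪) ∈ maximalIdeal 𝒪 → (∃ ζ : 𝒪, IsPrimitiveRoot ζ p) →
  ∀ ρ : GaloisRepAdic 𝒪, m59e_IsTate p W ρ →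
  ∀ (S : Finset ℕ) (N₁ : ℕ), m59e_IsBadSet W p S → Squarefree N₁ →
    (∀ ℓ : ℕ, ℓ.Prime → ℓ ∣ N₁ → ℓ ∈ S) →
    m59e_Occ p W S N₁ →
    (∀ q : ℕ, q.Prime → q ≠ p → q ∣ N₁ → ¬ ρ.residual.IsUnramifiedAt q) →
    -- case (III)
    ¬ W.IsGoodPrimeFor p → ¬ p ∣ N₁ →
  ∀ lam : 𝒪, maximalIdeal 𝒪 = Ideal.span {lam} →
    ∃ (S' : Finset ℕ) (N : ℕ) (_ : NeZero N),
      S ⊆ S' ∧ Squarefree N ∧ (∀ ℓ : ℕ, ℓ.Prime → ℓ ∣ N → ℓ ∈ S') ∧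
      ∃ (T8 Tn κ : Type) (_ : Fintype T8) (_ : Fintype Tn) (_ : Fintype κ)
        (a : T8 → 𝒪) (l8 : T8 → ℕ) (t0 : Tn → 𝒪) (ln : Tn → ℕ) (ε8 : T8 → ℤ) (εn : Tn → ℤ)
        (ka kv : κ) (εp : ℤ)
        (m : ℕ) (ch : Fin m → (T8 ⊕ Tn) ⊕ Unit) (ee : Fin m → ℕ) (rr : ℕ)
        (d : Fin (m + 1) → ℕ) (e : Fin m → ℕ) (EE : ℕ)
        (T0 : Type) (_ : CommRing T0) (_ : Algebra 𝒪 T0) (_ : Module.Finite 𝒪 T0)
        (x₂ : T0 →ₐ[𝒪] 𝒪)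
        (j : T0 →+* Matrix (Fin (d (Fin.last m))) (Fin (d (Fin.last m)))
          (MvPowerSeries (Fin rr) 𝒪 ⧸ twds_a 𝒪 rr))
        (K : Type) (_ : Finite K) (γ : K → T0) (β : ((T8 × Fin 6) ⊕ Tn) ⊕ Unit → T0)
        (act : heckeAlgebra N 2 (↑S' : Set ℕ) →+*
          Matrix (Fin (d (Fin.last m))) (Fin (d (Fin.last m)))
            (MvPowerSeries (Fin rr) 𝒪 ⧸ twds_a 𝒪 rr)),
        Function.Bijective ch ∧ ka ≠ kv ∧ εp * εp = 1 ∧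
        (∀ t, l8 t % p = 1) ∧ (∀ t, 2 ≤ l8 t) ∧
        (∀ t, a t ^ 2 - (l8 t : 𝒪) ∈ maximalIdeal 𝒪) ∧
        (∀ t, ε8 t * ε8 t = 1) ∧ (∀ l, εn l * εn l = 1) ∧
        rr + 1 = Fintype.card κ + 3 * Fintype.card T8 + Fintype.card Tn ∧ 0 < d 0 ∧
        Submodule.span 𝒪 (Set.range γ) = ⊤ ∧
        (∀ c, x₂ (β c) = m59ci3_xval l8 ln ε8 εn c) ∧
        (∀ [IsLocalRing (m59lp_Rp 𝒪 κ a l8 t0 ln ka kv)] (n : ℕ),
          Nonempty (m59d_ChainLevel 𝒪 (MvPowerSeries (Fin rr) 𝒪)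
            (m59lp_Rp 𝒪 κ a l8 t0 ln ka kv) T0 d e EE (twds_a 𝒪 rr) (twds_b 𝒪 rr (p ^ n))
            (twds_b_le_a rr (p ^ n)) j (m59ci_theta 𝒪 rr T0) (m59lp_uRp a l8 t0 ln ka kv)
            (m59lp_cc lam a l8 t0 ln ka kv) (m59ci3_nu κ a l8 t0 ln ka kv) β γ
            (m59ci3_r κ a l8 t0 ln ka kv ch ee)
            (m59ci3_s κ a l8 t0 ln ka kv ch p εp ε8 εn))) ∧
        ∀ (ℓ : ℕ) (hℓ : ℓ.Prime) (hℓN : ¬ ℓ ∣ N) (hℓS : ℓ ∉ (↑S' : Set ℕ)),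
          ∃ t : T0, j t = act (heckeAlgebra.T hℓ hℓN hℓS) ∧
            x₂ t = ((W.apOfModel ℓ : ℤ) : 𝒪)

/-- **the bundled datum on the frame of `Rp`** (case (III)). -/
def m59ci3_data {𝒪 : Type} [CommRing 𝒪] [IsDomain 𝒪] [IsDiscreteValuationRing 𝒪]
    [IsAdicComplete (maximalIdeal 𝒪) 𝒪] [Finite (ResidueField 𝒪)] [CharZero 𝒪]
    {p : ℕ} (hp : p.Prime) (hp2 : p ≠ 2) (hp𝒪 : (p : 𝒪) ∈ maximalIdeal 𝒪)
    {lam : 𝒪} (hmax : maximalIdeal 𝒪 = Ideal.span {lam})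
    {T8 Tn κ : Type} [Fintype T8] [Fintype Tn] [Fintype κ]
    (a : T8 → 𝒪) (l8 : T8 → ℕ) (t0 : Tn → 𝒪) (ln : Tn → ℕ) (ε8 : T8 → ℤ) (εn : Tn → ℤ)
    (ka kv : κ) (εp : ℤ)
    {m : ℕ} (ch : Fin m → (T8 ⊕ Tn) ⊕ Unit) (ee : Fin m → ℕ) (rr : ℕ)
    (d : Fin (m + 1) → ℕ) (e : Fin m → ℕ) (EE : ℕ)
    {T0 : Type} [CommRing T0] [Algebra 𝒪 T0] [Module.Finite 𝒪 T0] (x₂ : T0 →ₐ[𝒪] 𝒪)
    (j : T0 →+* Matrix (Fin (d (Fin.last m))) (Fin (d (Fin.last m)))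
      (MvPowerSeries (Fin rr) 𝒪 ⧸ twds_a 𝒪 rr))
    {K : Type} [Finite K] (γ : K → T0) (β : ((T8 × Fin 6) ⊕ Tn) ⊕ Unit → T0)
    (hch : Function.Bijective ch) (hne : ka ≠ kv) (hεp : εp * εp = 1)
    (hl8 : ∀ t, l8 t % p = 1) (hl8' : ∀ t, 2 ≤ l8 t)
    (han : ∀ t, a t ^ 2 - (l8 t : 𝒪) ∈ maximalIdeal 𝒪)
    (hε8 : ∀ t, ε8 t * ε8 t = 1) (hεn : ∀ l, εn l * εn l = 1)
    (hrr : rr + 1 = Fintype.card κ + 3 * Fintype.card T8 + Fintype.card Tn) (hd0 : 0 < d 0)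
    (hγ : Submodule.span 𝒪 (Set.range γ) = ⊤)
    (hβ : ∀ c, x₂ (β c) = m59ci3_xval l8 ln ε8 εn c)
    [hloc : IsLocalRing (m59lp_Rp 𝒪 κ a l8 t0 ln ka kv)]
    (hLv : ∀ n : ℕ, Nonempty (m59d_ChainLevel 𝒪 (MvPowerSeries (Fin rr) 𝒪)
      (m59lp_Rp 𝒪 κ a l8 t0 ln ka kv) T0 d e EE (twds_a 𝒪 rr) (twds_b 𝒪 rr (p ^ n))
      (twds_b_le_a rr (p ^ n)) j (m59ci_theta 𝒪 rr T0) (m59lp_uRp a l8 t0 ln ka kv)
      (m59lp_cc lam a l8 t0 ln ka kv) (m59ci3_nu κ a l8 t0 ln ka kv) β γ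
      (m59ci3_r κ a l8 t0 ln ka kv ch ee)
      (m59ci3_s κ a l8 t0 ln ka kv ch p εp ε8 εn))) :
    m59d_ChainData 𝒪 lam T0 (x₂ : T0 →+* 𝒪) :=
  have hlam𝒪 : lam ∈ maximalIdeal 𝒪 := by
    rw [hmax]; exact Ideal.mem_span_singleton_self lam
  have hlam0 : lam ≠ 0 := by
    rintro rfl
    apply IsDiscreteValuationRing.not_a_field 𝒪
    rw [hmax]
    simp
  { S := MvPowerSeries (Fin rr) 𝒪
    domS := NoZeroDivisors.to_isDomain _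
    complS := twb_mvps_isAdicComplete 𝒪
    R := m59lp_Rp 𝒪 κ a l8 t0 ln ka kv
    locR := hloc
    complR := m59lp_Rp_isAdicComplete 𝒪 κ a l8 t0 ln ka kv
    complT0 := m59ci_complT0 lam hmax
    m := m
    d := d
    e := e
    EE := EE
    hd0 := hd0
    hS := twds_finite_quot rr
    hR := m59lp_Rp_finite 𝒪 κ a l8 t0 ln ka kv
    hT0 := twd_t0_finite_quot lam hmax
    hlamS := twds_algebraMap_mem_maximalIdeal rr hlam𝒪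
    hlamS0 := twds_algebraMap_ne_zero rr hlam0
    𝔞 := twds_a 𝒪 rr
    𝔟 := fun n => twds_b 𝒪 rr (p ^ n)
    h𝔟𝔞 := fun n => twds_b_le_a rr (p ^ n)
    h𝔟 := fun n => twds_b_le_pow rr hp𝒪 n
    j := j
    θ := m59ci_theta 𝒪 rr T0
    hθalg := m59ci_theta_algebraMap 𝒪 rr T0
    hθ := m59ci_theta_a 𝒪 rr T0 (x₂ : T0 →+* 𝒪)
    ι := ((T8 × Fin 2 × Fin 2) ⊕ (Tn × Fin 2)) ⊕ Unit
    κ := ((T8 × Fin 6) ⊕ Tn) ⊕ Unit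
    K := K
    u := m59lp_uRp a l8 t0 ln ka kv
    𝔠 := m59lp_cc lam a l8 t0 ln ka kv
    ν := m59ci3_nu κ a l8 t0 ln ka kv
    β := β
    γ := γ
    r := m59ci3_r κ a l8 t0 ln ka kv ch ee
    s := m59ci3_s κ a l8 t0 ln ka kv ch p εp ε8 εn
    hgen := m59ci_hgen γ hγ (m59ci_theta 𝒪 rr T0) (m59ci_theta_range 𝒪 rr T0)
    Lv := fun n => (hLv n).some
    hdim := m59ci3_hdim hmax hp hp2 hp𝒪 a l8 t0 ln hl8 han ka kv hne rr hrr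
    hbase := m59ci3_hbase hmax hp hp2 hp𝒪 a l8 t0 ln hl8 han ka kv hne rr hrr
    hpts := fun x hxν hxC => by
      obtain ⟨y, h1, h2, h3, h4⟩ := m59ci3_hpts hmax hp hp2 hp𝒪 a l8 t0 ln hl8 hl8' han ka kv
        hne rr hrr ch hch ee εp hεp ε8 hε8 εn hεn x (fun c => (hxν c).trans (hβ c))
        (fun c => by
          have h := hxC c
          rw [h]
          exact x₂.commutes c)
      exact ⟨y, h1, h2, h3, fun k P hP hd _ hr hPy => h4 k P hP hd hr hPy⟩ }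

/-- **[CI-III] from [CI3-LEVEL]**: the conclusion of [CHAIN-INPUT] in case (III). -/
theorem m59ci3_caseIII_of (Peu : m59e_PeuPred) (hL : m59ci3_Level_stmt Peu) :
    m59ci_CaseIII_stmt Peu := by
  intro p hpF hp W hΔ hW 𝒪 _ _ _ _ _ _ hp𝒪 hζ ρ hT S N₁ hS hN₁sq hN₁S hOcc hram hbad hpN
  obtain ⟨lam, hlam⟩ := IsDiscreteValuationRing.exists_irreducible 𝒪
  have hmax : maximalIdeal 𝒪 = Ideal.span {lam} :=
    (IsDiscreteValuationRing.irreducible_iff_uniformizer lam).1 hlam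
  obtain ⟨S', N, hNZ, hSS', hNsq, hNS', T8, Tn, κ, _, _, _, a, l8, t0, ln, ε8, εn, ka, kv, εp,
    m, ch, ee, rr, d, e, EE, T0, _, _, _, x₂, j, K, _, γ, β, act, hch, hne, hεp, hl8, hl8', han,
    hε8, hεn, hrr, hd0, hγ, hβ, hLv, hact⟩ :=
    hL p hp W hΔ hW 𝒪 hp𝒪 hζ ρ hT S N₁ hS hN₁sq hN₁S hOcc hram hbad hpN lam hmax
  have hp2 : p ≠ 2 := by
    rcases hp with rfl | rfl <;> norm_num
  haveI hloc : IsLocalRing (m59lp_Rp 𝒪 κ a l8 t0 ln ka kv) :=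
    m59lp_Rp_isLocalRing 𝒪 κ a l8 t0 ln ka kv han
  exact ⟨S', N, hNZ, hSS', hNsq, hNS', lam, T0, inferInstance, inferInstance,
    (x₂ : T0 →+* 𝒪),
    m59ci3_data hpF.out hp2 hp𝒪 hmax a l8 t0 ln ε8 εn ka kv εp ch ee rr d e EE x₂ j γ β hch hne
      hεp hl8 hl8' han hε8 hεn hrr hd0 hγ hβ (fun n => hLv n),
    act, hact⟩

end

end Fermat.Agent.M59
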